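import Mathlib

/-!
# Discrete logarithms modulo `p`-th powers, extended to rationals

`ratLog`; `ratLog_eq_mul` reduces it to the order at `ℓ`, the last step of `Vanishing`;
`CFT/Global/LocalCup` reuses it.
-/

set_option autoImplicit false

noncomputable section

namespace Fermat.CFT

/-- A surjective logarithm `(ℤ/q)ˣ → ℤ/p` whose kernel is the `p`-th powers. -/
structure DLog (p q : ℕ) where
  /-- The logarithm on residues modulo `q`. -/
  log : ZMod q → ZMod p
  /-- It is additive on nonzero residues. -/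
  log_mul : ∀ x y, x ≠ 0 → y ≠ 0 → log (x * y) = log x + log y
  /-- Its kernel consists of `p`-th powers. -/
  exists_pow : ∀ x, x ≠ 0 → log x = 0 → ∃ y, y ^ p = x
  /-- The logarithm takes the value one. -/
  exists_one : ∃ x, x ≠ 0 ∧ log x = 1

variable {p q : ℕ}

/-- A discrete logarithm modulo `p`-th powers exists for `p ∣ q - 1`. -/
theorem exists_dlog [hp : Fact p.Prime] [hq : Fact q.Prime] (h : p ∣ q - 1) :
    Nonempty (DLog p q) := by
  classical
  obtain ⟨g, hg⟩ := IsCyclic.exists_generator (α := (ZMod q)ˣ)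
  let g' : Multiplicative (ZMod p) := Multiplicative.ofAdd 1
  have hord : orderOf g' ∣ orderOf g := by
    rw [orderOf_eq_card_of_forall_mem_zpowers hg, Nat.card_eq_fintype_card, ZMod.card_units]
    refine dvd_trans (orderOf_dvd_of_pow_eq_one ?_) h
    change Multiplicative.ofAdd (p • (1 : ZMod p)) = 1
    rw [nsmul_one, ZMod.natCast_self, ofAdd_zero]
  let φ := monoidHomOfForallMemZpowers hg hord
  have hφg : φ g = g' := monoidHomOfForallMemZpowers_apply_gen hg hord
  refine ⟨⟨fun x => if hx : x = 0 then 0 else Multiplicative.toAdd (φ (Units.mk0 x hx)),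
    fun x y hx hy => ?_, fun x hx h0 => ?_, ⟨(g : ZMod q), g.ne_zero, ?_⟩⟩⟩
  · rw [dif_neg hx, dif_neg hy, dif_neg (mul_ne_zero hx hy), Units.mk0_mul, map_mul, toAdd_mul]
  · rw [dif_neg hx] at h0
    obtain ⟨k, hk⟩ := mem_powers_iff_mem_zpowers.mpr (hg (Units.mk0 x hx))
    change g ^ k = Units.mk0 x hx at hk
    rw [← hk, map_pow, hφg, toAdd_pow] at h0
    change k • (1 : ZMod p) = 0 at h0
    rw [nsmul_one, ZMod.natCast_eq_zero_iff] at h0
    obtain ⟨j, rfl⟩ := h0
    refine ⟨((g ^ j : (ZMod q)ˣ) : ZMod q), ?_⟩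
    rw [← Units.val_pow_eq_pow_val, ← pow_mul, mul_comm, hk, Units.val_mk0]
  · rw [dif_neg g.ne_zero, Units.mk0_val, hφg]; rfl

namespace DLog

variable [hp : Fact p.Prime] [hq : Fact q.Prime] (D : DLog p q)

/-- The logarithm of one vanishes. -/
lemma log_one : D.log 1 = 0 := by
  have h := D.log_mul 1 1 one_ne_zero one_ne_zero
  rw [mul_one] at h
  exact left_eq_add.mp h

/-- The logarithm of a power. -/
lemma log_pow {x : ZMod q} (hx : x ≠ 0) (n : ℕ) : D.log (x ^ n) = n * D.log x := by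
  induction n with
  | zero => rw [pow_zero, log_one, Nat.cast_zero, zero_mul]
  | succ n ih => rw [pow_succ, D.log_mul _ _ (pow_ne_zero _ hx) hx, ih]; push_cast; ring

/-- The logarithm of `-1` vanishes for odd `p`. -/
lemma log_neg_one (h2 : 2 < p) : D.log (-1) = 0 := by
  have hne : (-1 : ZMod q) ≠ 0 := neg_ne_zero.mpr one_ne_zero
  have h := D.log_mul (-1) (-1) hne hne
  rw [neg_mul_neg, one_mul, log_one, ← two_mul] at h
  rcases mul_eq_zero.mp h.symm with h2' | h0
  · have : ((2 : ℕ) : ZMod p) = 0 := by exact_mod_cast h2'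
    rw [ZMod.natCast_eq_zero_iff] at this
    have := Nat.le_of_dvd two_pos this
    omega
  · exact h0

/-- The logarithm of an integer, ignoring powers of `q`. -/
def intLog (n : ℤ) : ZMod p := D.log ((n / (q : ℤ) ^ padicValInt q n : ℤ) : ZMod q)

omit hp in
/-- The logarithm of an integer is that of its part prime to `q`. -/
lemma intLog_eq {n n' : ℤ} {k : ℕ} (h : n = (q : ℤ) ^ k * n') (hn' : ¬ (q : ℤ) ∣ n') :
    D.intLog n = D.log (n' : ZMod q) := by
  have h0 : n' ≠ 0 := fun h => hn' (h ▸ dvd_zero _)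
  have hv : padicValInt q n = k := by
    rw [h, padicValInt.mul (pow_ne_zero _ (Int.natCast_ne_zero.mpr hq.out.ne_zero)) h0,
      padicValInt.eq_zero_of_not_dvd hn', add_zero, padicValInt, Int.natAbs_pow, Int.natAbs_natCast,
      padicValNat.prime_pow]
  rw [intLog, hv, h, Int.mul_ediv_cancel_left _
    (pow_ne_zero _ (Int.natCast_ne_zero.mpr hq.out.ne_zero))]

omit hp in
/-- The logarithm of an integer prime to `q` is that of its residue. -/
lemma intLog_of_not_dvd {n : ℤ} (hn : ¬ (q : ℤ) ∣ n) : D.intLog n = D.log (n : ZMod q) :=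
  D.intLog_eq (k := 0) (by simp) hn

omit hp in
/-- A nonzero integer is a power of `q` times an integer prime to `q`. -/
lemma exists_decomp {n : ℤ} (hn : n ≠ 0) : ∃ (k : ℕ) (n' : ℤ), n = (q : ℤ) ^ k * n' ∧
    ¬ (q : ℤ) ∣ n' := by
  obtain ⟨n', hn'⟩ := padicValInt_dvd (p := q) n
  refine ⟨padicValInt q n, n', hn', fun ⟨c, hc⟩ => ?_⟩
  have h0 : c ≠ 0 := fun h => hn (by rw [hn', hc, h, mul_zero, mul_zero])
  have hq0 : (q : ℤ) ≠ 0 := Int.natCast_ne_zero.mpr hq.out.ne_zero
  have h2 := congrArg (padicValInt q) hn'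
  rw [hc, padicValInt.mul (pow_ne_zero _ hq0) (mul_ne_zero hq0 h0), padicValInt.mul hq0 h0,
    padicValInt_self] at h2
  simp only [padicValInt, Int.natAbs_pow, Int.natAbs_natCast, padicValNat.prime_pow] at h2
  omega

/-- The logarithm of a product of integers. -/
lemma intLog_mul {m n : ℤ} (hm : m ≠ 0) (hn : n ≠ 0) :
    D.intLog (m * n) = D.intLog m + D.intLog n := by
  obtain ⟨k, m', hm', hqm⟩ := exists_decomp (q := q) hm
  obtain ⟨l, n', hn', hqn⟩ := exists_decomp (q := q) hn
  have hpr : Prime (q : ℤ) := Nat.prime_iff_prime_int.mp hq.out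
  rw [D.intLog_eq (k := k + l) (n' := m' * n') (by rw [hm', hn', pow_add]; ring)
    (fun h => (hpr.dvd_or_dvd h).elim hqm hqn), D.intLog_eq hm' hqm, D.intLog_eq hn' hqn,
    Int.cast_mul, D.log_mul _ _ (fun h => hqm ((ZMod.intCast_zmod_eq_zero_iff_dvd _ q).mp h))
      (fun h => hqn ((ZMod.intCast_zmod_eq_zero_iff_dvd _ q).mp h))]

/-- The logarithm of the integer one vanishes. -/
lemma intLog_one : D.intLog 1 = 0 := by
  have h := D.intLog_mul (m := 1) (n := 1) one_ne_zero one_ne_zero
  rw [mul_one] at h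
  exact left_eq_add.mp h

/-- The logarithm ignores signs for odd `p`. -/
lemma intLog_neg (h2 : 2 < p) {n : ℤ} (hn : n ≠ 0) : D.intLog (-n) = D.intLog n := by
  have h1 : ¬ (q : ℤ) ∣ -1 := by
    intro h
    rw [Int.natCast_dvd] at h
    exact hq.out.ne_one (Nat.eq_one_of_dvd_one h)
  rw [neg_eq_neg_one_mul, D.intLog_mul (by norm_num) hn, D.intLog_of_not_dvd h1,
    Int.cast_neg, Int.cast_one, D.log_neg_one h2, zero_add]

/-- The logarithm of an integer is that of its absolute value for odd `p`. -/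
lemma intLog_natAbs (h2 : 2 < p) {n : ℤ} (hn : n ≠ 0) : D.intLog n = D.intLog (n.natAbs : ℤ) := by
  rcases Int.natAbs_eq n with h | h
  · rw [← h]
  · conv_lhs => rw [h, D.intLog_neg h2 (by simpa using hn)]

/-- The logarithm of a product of powers. -/
lemma intLog_prod_pow {ι : Type*} (s : Finset ι) (a : ι → ℕ) (e : ι → ℕ)
    (ha : ∀ i ∈ s, a i ≠ 0) :
    D.intLog ((∏ i ∈ s, a i ^ e i : ℕ) : ℤ) = ∑ i ∈ s, (e i : ZMod p) * D.intLog (a i) := by
  classical
  induction s using Finset.induction with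
  | empty => simp [intLog_one]
  | insert i s hi ih =>
    have hs : (∏ j ∈ s, a j ^ e j) ≠ 0 :=
      Finset.prod_ne_zero_iff.mpr fun j hj => pow_ne_zero _ (ha j (Finset.mem_insert_of_mem hj))
    have hpow : ∀ k : ℕ, D.intLog ((a i : ℤ) ^ k) = (k : ZMod p) * D.intLog (a i) := by
      intro k
      induction k with
      | zero => rw [pow_zero, intLog_one, Nat.cast_zero, zero_mul]
      | succ k ihk =>
        have h0 : (a i : ℤ) ≠ 0 := Int.natCast_ne_zero.mpr (ha i (Finset.mem_insert_self _ _))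
        rw [pow_succ, D.intLog_mul (pow_ne_zero _ h0) h0, ihk]; push_cast; ring
    rw [Finset.prod_insert hi, Finset.sum_insert hi, Nat.cast_mul, Nat.cast_pow,
      D.intLog_mul (pow_ne_zero _ (Int.natCast_ne_zero.mpr (ha i (Finset.mem_insert_self _ _))))
        (Int.natCast_ne_zero.mpr hs), hpow, ih fun j hj => ha j (Finset.mem_insert_of_mem hj)]

/-- The logarithm of a natural number from its factorisation. -/
lemma intLog_natCast {n : ℕ} (hn : n ≠ 0) {S : Finset ℕ} (hS : n.primeFactors ⊆ S)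
    (hSp : ∀ ℓ ∈ S, ℓ.Prime) :
    D.intLog n = ∑ ℓ ∈ S, (padicValNat ℓ n : ZMod p) * D.intLog ℓ := by
  conv_lhs => rw [← Nat.prod_factorization_pow_eq_self hn]
  rw [Finsupp.prod, D.intLog_prod_pow _ _ _ fun i hi => (Nat.prime_of_mem_primeFactors (by
    rwa [Nat.support_factorization] at hi)).ne_zero, Nat.support_factorization]
  rw [Finset.sum_subset hS fun ℓ _ hℓ => by
    rw [Finsupp.notMem_support_iff.mp (by rwa [Nat.support_factorization]),
      Nat.cast_zero, zero_mul]]
  exact Finset.sum_congr rfl fun ℓ hℓ => by rw [Nat.factorization_def n (hSp ℓ hℓ)]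

/-- The logarithm of a rational number, ignoring powers of `q`. -/
def ratLog (r : ℚ) : ZMod p := D.intLog r.num - D.intLog (r.den : ℤ)

/-- The logarithm of a quotient of integers. -/
lemma ratLog_div {a b : ℤ} (ha : a ≠ 0) (hb : b ≠ 0) :
    D.ratLog ((a : ℚ) / b) = D.intLog a - D.intLog b := by
  set r := (a : ℚ) / b with hr
  have hr0 : r ≠ 0 := div_ne_zero (Int.cast_ne_zero.mpr ha) (Int.cast_ne_zero.mpr hb)
  have h : r.num * b = a * r.den := by
    have h1 : (r.num : ℚ) * b = a * r.den := by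
      rw [← div_eq_div_iff (Nat.cast_ne_zero.mpr r.den_nz) (Int.cast_ne_zero.mpr hb),
        Rat.num_div_den]
    exact_mod_cast h1
  have h' := congrArg D.intLog h
  rw [D.intLog_mul (Rat.num_ne_zero.mpr hr0) hb,
    D.intLog_mul ha (Int.natCast_ne_zero.mpr r.den_nz)] at h'
  rw [ratLog]
  linear_combination h'

/-- The logarithm of a product of rationals. -/
lemma ratLog_mul {r s : ℚ} (hr : r ≠ 0) (hs : s ≠ 0) :
    D.ratLog (r * s) = D.ratLog r + D.ratLog s := by
  have h : r * s = ((r.num * s.num : ℤ) : ℚ) / ((r.den * s.den : ℤ) : ℚ) := by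
    push_cast
    rw [← div_mul_div_comm, Rat.num_div_den, Rat.num_div_den]
  have h1 := Rat.num_ne_zero.mpr hr
  have h2 := Rat.num_ne_zero.mpr hs
  have h3 : (r.den : ℤ) ≠ 0 := Int.natCast_ne_zero.mpr r.den_nz
  have h4 : (s.den : ℤ) ≠ 0 := Int.natCast_ne_zero.mpr s.den_nz
  rw [h, D.ratLog_div (mul_ne_zero h1 h2) (mul_ne_zero h3 h4), D.intLog_mul h1 h2,
    D.intLog_mul h3 h4, ratLog, ratLog]
  ring

/-- The logarithm of the rational one vanishes. -/
lemma ratLog_one : D.ratLog 1 = 0 := by simp [ratLog, intLog_one]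

/-- The logarithm of an integral power of a rational. -/
lemma ratLog_zpow {r : ℚ} (hr : r ≠ 0) (k : ℤ) : D.ratLog (r ^ k) = (k : ZMod p) * D.ratLog r := by
  induction k using Int.induction_on with
  | zero => rw [zpow_zero, ratLog_one, Int.cast_zero, zero_mul]
  | succ n ih => rw [zpow_add_one₀ hr, D.ratLog_mul (zpow_ne_zero _ hr) hr, ih]; push_cast; ring
  | pred n ih =>
    have h := D.ratLog_mul (zpow_ne_zero (-(n : ℤ) - 1) hr) hr
    rw [← zpow_add_one₀ hr, sub_add_cancel, ih] at h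
    push_cast at h ⊢
    linear_combination -h

/-- The logarithm of `q` vanishes. -/
lemma ratLog_self : D.ratLog (q : ℚ) = 0 := by
  have h : (q : ℚ) = ((q : ℤ) : ℚ) / ((1 : ℤ) : ℚ) := by simp
  rw [h, D.ratLog_div (Int.natCast_ne_zero.mpr hq.out.ne_zero) one_ne_zero, intLog_one, sub_zero,
    D.intLog_eq (k := 1) (n' := 1) (by simp) (fun h1 => hq.out.ne_one (Nat.eq_one_of_dvd_one
      (by exact_mod_cast h1))), Int.cast_one, log_one]

/-- A rational with vanishing contributions away from `ℓ` has logarithm its order at `ℓ` times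
that of `ℓ`. -/
lemma ratLog_eq_mul (h2 : 2 < p) {r : ℚ} (hr : r ≠ 0) {ℓ : ℕ} (hℓ : ℓ.Prime)
    (h : ∀ ℓ' : ℕ, ℓ'.Prime → ℓ' ≠ ℓ → (padicValRat ℓ' r : ZMod p) * D.intLog ℓ' = 0) :
    D.ratLog r = (padicValRat ℓ r : ZMod p) * D.intLog ℓ := by
  classical
  set S := r.num.natAbs.primeFactors ∪ r.den.primeFactors ∪ {ℓ}
  have hSp : ∀ x ∈ S, x.Prime := fun x hx => by
    rcases Finset.mem_union.mp hx with hx | hx
    · rcases Finset.mem_union.mp hx with hx | hx <;> exact Nat.prime_of_mem_primeFactors hx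
    · exact (Finset.mem_singleton.mp hx) ▸ hℓ
  rw [ratLog, D.intLog_natAbs h2 (Rat.num_ne_zero.mpr hr),
    D.intLog_natCast (Int.natAbs_ne_zero.mpr (Rat.num_ne_zero.mpr hr)) (S := S)
      (fun x hx => Finset.mem_union_left _ (Finset.mem_union_left _ hx)) hSp,
    D.intLog_natCast r.den_nz (S := S)
      (fun x hx => Finset.mem_union_left _ (Finset.mem_union_right _ hx)) hSp,
    ← Finset.sum_sub_distrib]
  have key : ∀ x : ℕ, (padicValNat x r.num.natAbs : ZMod p) * D.intLog x -
      (padicValNat x r.den : ZMod p) * D.intLog x = (padicValRat x r : ZMod p) * D.intLog x := by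
    intro x
    rw [padicValRat, padicValInt, Int.cast_sub, Int.cast_natCast, Int.cast_natCast]; ring
  rw [Finset.sum_congr rfl fun x _ => key x,
    Finset.sum_eq_single_of_mem ℓ (Finset.mem_union_right _ (Finset.mem_singleton_self ℓ))
      fun x hx hne => h x (hSp x hx) hne]

end DLog

end Fermat.CFT
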