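import Fermat.Agent.CFT.Herbrand.Basic

/-!
# Auxiliary primes for the vanishing of the `ω⁻¹`-component

`exists_aux`: primes `ℓ`, `q` with a Frobenius on which the character is nonzero and `ℓ` not a
`p`-th power modulo `q`, the start of `Vanishing`.
-/

set_option autoImplicit false

noncomputable section

open NumberField
open scoped Pointwise

namespace Fermat.CFT

local notation "ℚbar" => AlgebraicClosure ℚ
local notation "Γℚ" => AlgebraicClosure ℚ ≃ₐ[ℚ] AlgebraicClosure ℚ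

/-- An everywhere unramified additive character of `ker cycChar p` in the `χ⁻¹`-component. -/
structure HKummer (p : ℕ) [Fact p.Prime] where
  /-- The values of the character on `Γℚ`. -/
  toFun : Γℚ → ZMod p
  /-- It is additive on the kernel of `cycChar p`. -/
  map_mul : ∀ σ τ, cycChar p σ = 1 → cycChar p τ = 1 → toFun (σ * τ) = toFun σ + toFun τ
  /-- Conjugation acts on it through the inverse cyclotomic character. -/
  map_conj : ∀ g τ, cycChar p τ = 1 →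
    toFun (g * τ * g⁻¹) = (((cycChar p g)⁻¹ : (ZMod p)ˣ) : ZMod p) * toFun τ
  /-- It vanishes on an open subgroup. -/
  open_ker : ∃ U : Subgroup Γℚ, IsOpen (U : Set Γℚ) ∧ ∀ σ ∈ U, cycChar p σ = 1 ∧ toFun σ = 0
  /-- The character kills all inertia. -/
  unr : ∀ ℓ : ℕ, ℓ.Prime → ∀ A : ValuationSubring ℚbar, A.LiesOverPrime ℓ →
    ∀ σ ∈ A.inertiaSubgroupIn ℚ, cycChar p σ = 1 → toFun σ = 0

namespace HKummer

variable {p : ℕ} [hp : Fact p.Prime] (f : HKummer p)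

/-- The character vanishes at one. -/
lemma map_one : f.toFun 1 = 0 := by
  have h := f.map_mul 1 1 (_root_.map_one _) (_root_.map_one _)
  rw [mul_one] at h
  exact left_eq_add.mp h

/-- The character of a power. -/
lemma map_pow {σ : Γℚ} (hσ : cycChar p σ = 1) (n : ℕ) : f.toFun (σ ^ n) = n * f.toFun σ := by
  induction n with
  | zero => rw [pow_zero, f.map_one, Nat.cast_zero, zero_mul]
  | succ n ih =>
    rw [pow_succ, f.map_mul _ _ (by rw [_root_.map_pow, hσ, one_pow]) hσ, ih]; push_cast; ring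

/-- The character of an inverse. -/
lemma map_inv {σ : Γℚ} (hσ : cycChar p σ = 1) : f.toFun σ⁻¹ = -f.toFun σ := by
  have h := f.map_mul σ⁻¹ σ (by rw [_root_.map_inv, hσ, inv_one]) hσ
  rw [inv_mul_cancel, f.map_one] at h
  linear_combination -h

/-- The character of an integral power. -/
lemma map_zpow {σ : Γℚ} (hσ : cycChar p σ = 1) (n : ℤ) : f.toFun (σ ^ n) = n * f.toFun σ := by
  rcases n.eq_nat_or_neg with ⟨m, rfl | rfl⟩
  · rw [zpow_natCast, f.map_pow hσ, Int.cast_natCast]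
  · rw [zpow_neg, zpow_natCast, f.map_inv (by rw [_root_.map_pow, hσ, one_pow]), f.map_pow hσ]
    push_cast; ring

/-- Inertia away from `p` lies in `ker cycChar p`, so it is killed. -/
lemma unr' {ℓ : ℕ} (hℓ : ℓ.Prime) (hℓp : ℓ ≠ p) {A : ValuationSubring ℚbar}
    (hA : A.LiesOverPrime ℓ) {σ : Γℚ} (hσ : σ ∈ A.inertiaSubgroupIn ℚ) : f.toFun σ = 0 :=
  f.unr ℓ hℓ A hA σ hσ (cycChar_eq_one_of_mem_inertia hℓ hℓp hA hσ)

/-- Auxiliary primes `ℓ` and `q` for a Kummer character, with places and Frobenius elements over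
them. -/
structure Aux (f : HKummer p) where
  /-- The first auxiliary prime. -/
  ℓ : ℕ
  /-- The first auxiliary prime is prime. -/
  hℓ : ℓ.Prime
  /-- A place over `ℓ`. -/
  A₀ : ValuationSubring ℚbar
  /-- The place `A₀` lies over `ℓ`. -/
  hA₀ : A₀.LiesOverPrime ℓ
  /-- A Frobenius at that place. -/
  φ₀ : Γℚ
  /-- `φ₀` is a Frobenius at `A₀`. -/
  hφ₀ : A₀.IsFrobeniusAt φ₀ ℓ
  /-- `ℓ` is not `p`. -/
  hℓp : ℓ ≠ p
  /-- `ℓ` is one modulo `p`. -/
  hℓ_one : (ℓ : ZMod p) = 1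
  /-- The character does not vanish at the Frobenius. -/
  hfφ₀ : f.toFun φ₀ ≠ 0
  /-- The second auxiliary prime. -/
  q : ℕ
  /-- The second auxiliary prime is prime. -/
  hq : q.Prime
  /-- `q` is not `p`. -/
  hqp : q ≠ p
  /-- `q` is not `ℓ`. -/
  hqℓ : q ≠ ℓ
  /-- `q` is one modulo `p`. -/
  hq_one : (q : ZMod p) = 1
  /-- `ℓ` is not a `p`-th power modulo `q`. -/
  hnpow : ∀ r : ZMod q, r ^ p ≠ (ℓ : ZMod q)
  /-- The character vanishes at every Frobenius over `q`. -/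
  hsplit : ∀ B : ValuationSubring ℚbar, B.LiesOverPrime q → ∀ φ, B.IsFrobeniusAt φ q →
    f.toFun φ = 0

/-- Elements with equal restriction to a field on whose fixing subgroup `f` is trivial have equal
values. -/
lemma eq_of_restrict_eq {E : IntermediateField ℚ ℚbar} [FiniteDimensional ℚ E] [Normal ℚ E]
    (hE : ∀ σ ∈ E.fixingSubgroup, cycChar p σ = 1 ∧ f.toFun σ = 0) {σ σ' : Γℚ}
    (h : AlgEquiv.restrictNormalHom E σ = AlgEquiv.restrictNormalHom E σ')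
    (h' : cycChar p σ' = 1) : cycChar p σ = 1 ∧ f.toFun σ = f.toFun σ' := by
  obtain ⟨h1, h2⟩ := hE (σ * σ'⁻¹) ((restrict_eq_one_iff E _).mp (by
    rw [_root_.map_mul, _root_.map_inv, h, mul_inv_cancel]))
  have h3 : cycChar p σ = 1 := by
    rwa [_root_.map_mul, _root_.map_inv, h', inv_one, mul_one] at h1
  refine ⟨h3, ?_⟩
  rw [f.map_mul _ _ h3 (by rw [_root_.map_inv, h', inv_one]), f.map_inv h'] at h2
  linear_combination h2

/-- A good prime `ℓ ≡ 1 (mod p)` with a Frobenius on which `f` is nonzero. -/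
lemma exists_frobenius_ne_zero (E : IntermediateField ℚ ℚbar) [FiniteDimensional ℚ E] [Normal ℚ E]
    (hE : ∀ σ ∈ E.fixingSubgroup, cycChar p σ = 1 ∧ f.toFun σ = 0) {τ : Γℚ}
    (hτ : cycChar p τ = 1) (hfτ : f.toFun τ ≠ 0) :
    ∃ ℓ : ℕ, ℓ.Prime ∧ ℓ ≠ p ∧ (ℓ : ZMod p) = 1 ∧ ℓ ∉ exceptionalPrimes E ∧
      ∃ A₀ : ValuationSubring ℚbar, A₀.LiesOverPrime ℓ ∧
        ∃ φ₀ : Γℚ, A₀.IsFrobeniusAt φ₀ ℓ ∧ f.toFun φ₀ ≠ 0 := by
  obtain ⟨ℓ, hℓ, hℓT, hgood, A₀, hA₀, φ₀, hφ₀, hgen⟩ := exists_place_frobenius_generating E τ {p}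
  rw [Finset.mem_singleton] at hℓT
  obtain ⟨k, hk⟩ : AlgEquiv.restrictNormalHom E φ₀ ∈
      Subgroup.zpowers (AlgEquiv.restrictNormalHom E τ) := hgen ▸ Subgroup.mem_zpowers _
  change AlgEquiv.restrictNormalHom E τ ^ k = _ at hk
  rw [← _root_.map_zpow] at hk
  obtain ⟨hφH, -⟩ := f.eq_of_restrict_eq hE (σ := φ₀) (σ' := τ ^ k) hk.symm
    (by rw [_root_.map_zpow, hτ, one_zpow])
  refine ⟨ℓ, hℓ, hℓT, ?_, hgood, A₀, hA₀, φ₀, hφ₀, fun h0 => ?_⟩
  · rw [← cycChar_frobenius hℓ hℓT hA₀ hφ₀, hφH, Units.val_one]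
  · obtain ⟨m, hm⟩ : AlgEquiv.restrictNormalHom E τ ∈
        Subgroup.zpowers (AlgEquiv.restrictNormalHom E φ₀) := hgen ▸ Subgroup.mem_zpowers _
    change AlgEquiv.restrictNormalHom E φ₀ ^ m = _ at hm
    rw [← _root_.map_zpow] at hm
    obtain ⟨-, h2⟩ := f.eq_of_restrict_eq hE (σ := τ) (σ' := φ₀ ^ m) hm.symm
      (by rw [_root_.map_zpow, hφH, one_zpow])
    rw [f.map_zpow hφH, h0, mul_zero] at h2
    exact hfτ h2

/-- A field in which `ℓ` is unramified contains no `p`-th root of `ℓ`. -/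
lemma root_notMem_of_unramified (E : IntermediateField ℚ ℚbar) [FiniteDimensional ℚ E]
    [Normal ℚ E] {ℓ : ℕ} (hℓ : ℓ.Prime) (hgood : ℓ ∉ exceptionalPrimes E)
    {A : ValuationSubring ℚbar} (hA : A.LiesOverPrime ℓ) {β : ℚbar}
    (hβ : β ^ p = (ℓ : ℚbar)) : β ∉ E := by
  intro hmem
  let w := plBelow E hℓ hA
  have h1 : plRamIdx ℚ w = 1 :=
    plRamIdx_eq_one_of_inertia w fun g hg =>
      inertia_eq_one hℓ hgood w.isPrime (natCast_mem_plBelow E hℓ hA) hg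
  have h2 := ord_pow w (⟨β, hmem⟩ : E) p
  rw [show (⟨β, hmem⟩ : E) ^ p = (ℓ : E) from Subtype.ext hβ,
    ord_natCast_prime_of_mem hℓ w (natCast_mem_plBelow E hℓ hA), h1] at h2
  have h3 : (p : ℤ) ∣ 1 := ⟨_, h2⟩
  rw [Int.natCast_dvd] at h3
  exact hp.out.ne_one (Nat.eq_one_of_dvd_one h3)

/-- A Frobenius element which fixes `E` and moves a given number outside `E`. -/
lemma exists_frobenius_moving (E : IntermediateField ℚ ℚbar) [FiniteDimensional ℚ E]
    {β : ℚbar} (hβ : β ∉ E) (T : Finset ℕ) :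
    ∃ q : ℕ, q.Prime ∧ q ∉ T ∧ ∃ B : ValuationSubring ℚbar, B.LiesOverPrime q ∧
      ∃ φ : Γℚ, B.IsFrobeniusAt φ q ∧ φ ∈ E.fixingSubgroup ∧ φ β ≠ β := by
  -- some element fixes `E` and moves `β`; a Frobenius generates the same group modulo a level
  obtain ⟨g, hgE, hgβ⟩ : ∃ g : Γℚ, g ∈ E.fixingSubgroup ∧ g β ≠ β := by
    by_contra hno
    push Not at hno
    refine hβ ?_
    rw [← InfiniteGalois.fixedField_fixingSubgroup E, IntermediateField.mem_fixedField_iff]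
    exact fun σ hσ => hno σ hσ
  obtain ⟨E', hE', hE'n, hE'U⟩ := exists_normal_fixingSubgroup_le (U := E.fixingSubgroup ⊓
      (IntermediateField.adjoin ℚ {β}).fixingSubgroup) (by
    have := IntermediateField.adjoin.finiteDimensional (Algebra.IsIntegral.isIntegral (R := ℚ) β)
    rw [Subgroup.coe_inf]
    exact (IntermediateField.fixingSubgroup_isOpen E).inter
      (IntermediateField.fixingSubgroup_isOpen _))
  obtain ⟨q, hq, hqT, -, B, hB, φ, hφ, hgen⟩ := exists_place_frobenius_generating E' g T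
  have hcong : ∀ σ σ' : Γℚ, AlgEquiv.restrictNormalHom E' σ ∈
      Subgroup.zpowers (AlgEquiv.restrictNormalHom E' σ') →
      ∃ m : ℤ, ∃ e : Γℚ, σ = σ' ^ m * e ∧ e ∈ E.fixingSubgroup ∧ e β = β := by
    rintro σ σ' ⟨m, hm⟩
    change AlgEquiv.restrictNormalHom E' σ' ^ m = _ at hm
    have he := hE'U ((restrict_eq_one_iff E' ((σ' ^ m)⁻¹ * σ)).mp (by
      rw [_root_.map_mul, _root_.map_inv, _root_.map_zpow, hm, inv_mul_cancel]))
    exact ⟨m, _, (mul_inv_cancel_left _ _).symm, he.1,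
      he.2 ⟨β, IntermediateField.mem_adjoin_simple_self ℚ β⟩⟩
  obtain ⟨m, e, hφe, heE, -⟩ := hcong φ g (hgen ▸ Subgroup.mem_zpowers _)
  refine ⟨q, hq, hqT, B, hB, φ, hφ, hφe ▸ mul_mem (zpow_mem hgE m) heE, fun h => ?_⟩
  obtain ⟨m', e', hge, -, he'β⟩ := hcong g φ (hgen ▸ Subgroup.mem_zpowers _)
  apply hgβ
  rw [hge, AlgEquiv.mul_apply, he'β]
  exact (zpow_mem (show φ ∈ MulAction.stabilizer Γℚ β from h) m' :)

/-- Modulo a place over `q`, a `p`-th root of a `p`-th power residue is a nonzero number fixed by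
a Frobenius element fixing the `p`-th roots of unity. -/
lemma frobenius_smul_sub_mem {q : ℕ} [Fact q.Prime] (hqp : q ≠ p)
    {B : ValuationSubring ℚbar} (hB : B.LiesOverPrime q) {φ : Γℚ} (hφ : B.IsFrobeniusAt φ q)
    (hφ1 : cycChar p φ = 1) {ℓ : ℕ} (hℓq : ¬ q ∣ ℓ) {b : 𝓞 ℚbar} (hb : b ^ p = (ℓ : 𝓞 ℚbar))
    {r : ZMod q} (hr : r ^ p = (ℓ : ZMod q)) :
    φ • b - b ∈ primeOf B ∧ b ∉ primeOf B := by
  have hq : q.Prime := Fact.out
  obtain ⟨z, hz⟩ := exists_primitiveRoot_qbar (q := p)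
  let ζ : 𝓞 ℚbar := ⟨z, hz.isIntegral hp.out.pos⟩
  have := primeOf_isPrime B
  set mk := Ideal.Quotient.mk (primeOf B)
  have hqmem : mk (q : 𝓞 ℚbar) = 0 := Ideal.Quotient.eq_zero_iff_mem.mpr (natCast_mem_primeOf hB)
  have : CharP (𝓞 ℚbar ⧸ primeOf B) q :=
    (CharP.charP_iff_prime_eq_zero hq).mpr (by rwa [← map_natCast mk])
  let ι : ZMod q →+* 𝓞 ℚbar ⧸ primeOf B := ZMod.castHom dvd_rfl _
  have hζq : IsPrimitiveRoot (mk ζ) p := by
    have hne : mk ζ ≠ 1 := fun h1 => sub_notMem_primeOf (q := p) hq hqp hB (z := ζ) hz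
      (i := 1) (j := 0) (by norm_num) (by
        rw [← Ideal.Quotient.eq, _root_.map_pow, h1, one_pow, pow_zero, _root_.map_one])
    rw [← orderOf_eq_prime (p := p) (by
      rw [← _root_.map_pow, show ζ ^ p = 1 from RingOfIntegers.ext
        (by push_cast; exact hz.pow_eq_one), _root_.map_one]) hne]
    exact IsPrimitiveRoot.orderOf _
  -- modulo the prime `b` is `r` times a power of `ζ`
  have hbp : mk b ^ p = ι r ^ p := by
    rw [← _root_.map_pow ι, hr, map_natCast ι, ← map_natCast mk ℓ, ← _root_.map_pow, hb]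
  have hr0 : ι r ≠ 0 := fun h0 => by
    rw [_root_.map_eq_zero] at h0
    rw [h0, zero_pow hp.out.ne_zero, eq_comm, ZMod.natCast_eq_zero_iff] at hr
    exact hℓq hr
  -- Frobenius fixes both factors
  refine ⟨?_, fun h0 => ?_⟩
  · let _ : Field (𝓞 ℚbar ⧸ primeOf B) :=
      IsField.toField (Ideal.Quotient.maximal_ideal_iff_isField_quotient _ |>.mp
        (Ideal.isMaximal_of_isIntegral_of_isMaximal_comap (R := ℤ) _ (by
          change ((primeOf B).under ℤ).IsMaximal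
          rw [under_int_primeOf hq hB]
          exact PrincipalIdealRing.isMaximal_of_irreducible
            (Nat.prime_iff_prime_int.mp hq).irreducible)))
    obtain ⟨i, -, hi⟩ := hζq.eq_pow_of_pow_eq_one (show (mk b / ι r) ^ p = 1 by
      rw [div_pow, hbp, div_self (pow_ne_zero _ hr0)])
    rw [eq_div_iff hr0] at hi
    rw [← Ideal.Quotient.eq]
    have h1 := (isFrobeniusAt_iff hq hB φ).mp hφ b
    rw [← Ideal.Quotient.eq, _root_.map_pow, ← hi, mul_pow, ← _root_.map_pow ι, ZMod.pow_card] at h1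
    rw [h1, ← hi]
    congr 1
    have h2 := (isFrobeniusAt_iff hq hB φ).mp hφ (ζ ^ i)
    rw [← Ideal.Quotient.eq, _root_.map_pow mk, _root_.map_pow mk] at h2
    rw [← h2]
    refine (congrArg mk ?_).trans (_root_.map_pow mk ζ i)
    refine RingOfIntegers.ext ?_
    push_cast
    change φ (z ^ i) = z ^ i
    rw [_root_.map_pow, (cycChar_eq_one_iff hz).mp hφ1]
  · rw [← Ideal.Quotient.eq_zero_iff_mem] at h0
    rw [h0, zero_pow hp.out.ne_zero] at hbp
    exact pow_ne_zero _ hr0 hbp.symm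

/-- If a Frobenius at `q` fixes the `p`-th roots of unity and moves a `p`-th root of `ℓ`, then `ℓ`
is not a `p`-th power modulo `q`. -/
lemma pow_ne_of_frobenius_moves {ℓ q : ℕ} (hℓ : ℓ.Prime) (hq : q.Prime) (hqp : q ≠ p) (hqℓ : q ≠ ℓ)
    {B : ValuationSubring ℚbar} (hB : B.LiesOverPrime q) {φ : Γℚ} (hφ : B.IsFrobeniusAt φ q)
    (hφ1 : cycChar p φ = 1) {β : ℚbar} (hβ : β ^ p = (ℓ : ℚbar)) (hφβ : φ β ≠ β) (r : ZMod q) :
    r ^ p ≠ (ℓ : ZMod q) := fun hr => by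
  have := Fact.mk hq
  let b : 𝓞 ℚbar := ⟨β, IsIntegral.of_pow hp.out.pos (hβ ▸ isIntegral_natCast ℓ)⟩
  obtain ⟨hfix, hb0⟩ := frobenius_smul_sub_mem hqp hB hφ hφ1
    (fun h => hqℓ ((Nat.prime_dvd_prime_iff_eq hq hℓ).mp h))
    (show b ^ p = (ℓ : 𝓞 ℚbar) from RingOfIntegers.ext (by push_cast; exact hβ)) hr
  obtain ⟨z, hz⟩ := exists_primitiveRoot_qbar (q := p)
  let ζ : 𝓞 ℚbar := ⟨z, hz.isIntegral hp.out.pos⟩
  obtain ⟨j, hj, hj'⟩ := hz.eq_pow_of_pow_eq_one (show (φ β / β) ^ p = 1 by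
    rw [div_pow, ← _root_.map_pow, hβ, map_natCast,
      div_self (Nat.cast_ne_zero.mpr hℓ.ne_zero)])
  have hβ0 : β ≠ 0 := fun h0 => by
    rw [h0, zero_pow hp.out.ne_zero, eq_comm, Nat.cast_eq_zero] at hβ
    exact hℓ.ne_zero hβ
  rw [eq_div_iff hβ0] at hj'
  have hj0 : j ≠ 0 := by rintro rfl; exact hφβ (by rw [← hj', pow_zero, one_mul])
  refine sub_notMem_primeOf (q := p) hq hqp hB (z := ζ) hz (i := j) (j := 0) ?_ ?_
  · rw [Nat.cast_zero, Ne, ZMod.natCast_eq_zero_iff]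
    exact fun h => hj0 (Nat.eq_zero_of_dvd_of_lt h hj)
  · rw [show φ • b - b = (ζ ^ j - ζ ^ 0) * b from RingOfIntegers.ext (by
      push_cast
      change φ β - β = (z ^ j - z ^ 0) * β
      rw [show φ β = z ^ j * β from hj'.symm, pow_zero]; ring)] at hfix
    exact ((primeOf_isPrime B).mem_or_mem hfix).resolve_right hb0

/-- If `f` kills one Frobenius over `q ≡ 1 (mod p)`, it kills all of them. -/
lemma map_frobenius_eq_zero {q : ℕ} (hq : q.Prime) (hqp : q ≠ p) (hq_one : (q : ZMod p) = 1)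
    {B : ValuationSubring ℚbar} (hB : B.LiesOverPrime q) {φ : Γℚ} (hφ : B.IsFrobeniusAt φ q)
    (hφ1 : cycChar p φ = 1) (hfφ : f.toFun φ = 0) {B' : ValuationSubring ℚbar}
    (hB' : B'.LiesOverPrime q) {φ' : Γℚ} (hφ' : B'.IsFrobeniusAt φ' q) : f.toFun φ' = 0 := by
  obtain ⟨t, rfl⟩ := exists_smul_place hq hB hB'
  have hconj := isFrobeniusAt_conj hq hB hφ t
  have hmem := mul_inv_mem_inertiaSubgroupIn hq (liesOverPrime_smul t hB) hφ' hconj
  have hc : cycChar p (t * φ * t⁻¹) = 1 := by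
    rw [_root_.map_mul, _root_.map_mul, _root_.map_inv, hφ1, mul_one, mul_inv_cancel]
  have h1 := f.unr' hq hqp (liesOverPrime_smul t hB) hmem
  have hφ'1 : cycChar p φ' = 1 := by
    refine Units.ext ?_
    rw [cycChar_frobenius hq hqp (liesOverPrime_smul t hB) hφ', hq_one, Units.val_one]
  rw [f.map_mul _ _ hφ'1 (by rw [_root_.map_inv, hc, inv_one]), f.map_inv hc,
    f.map_conj t φ hφ1, hfφ, mul_zero, neg_zero, add_zero] at h1
  exact h1

/-- An element fixing the roots of unity on which `f` is nonzero gives auxiliary primes. -/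
theorem exists_aux {τ : Γℚ} (hτ : cycChar p τ = 1) (hfτ : f.toFun τ ≠ 0) : Nonempty (Aux f) := by
  obtain ⟨U, hUo, hU⟩ := f.open_ker
  obtain ⟨E, hE, hEn, hEU⟩ := exists_normal_fixingSubgroup_le hUo
  have hker : ∀ σ ∈ E.fixingSubgroup, cycChar p σ = 1 ∧ f.toFun σ = 0 := fun σ hσ =>
    hU σ (hEU hσ)
  obtain ⟨ℓ, hℓ, hℓp, hℓ_one, hgood, A₀, hA₀, φ₀, hφ₀, hfφ₀⟩ :=
    f.exists_frobenius_ne_zero E hker hτ hfτ
  obtain ⟨β, hβ⟩ := IsAlgClosed.exists_pow_nat_eq (ℓ : ℚbar) hp.out.pos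
  obtain ⟨q, hq, hqT, B, hB, φ, hφ, hφE, hφβ⟩ :=
    exists_frobenius_moving E (root_notMem_of_unramified E hℓ hgood hA₀ hβ) {p, ℓ}
  rw [Finset.mem_insert, Finset.mem_singleton, not_or] at hqT
  obtain ⟨hφ1, hfφ⟩ := hker φ hφE
  have hq_one : (q : ZMod p) = 1 := by
    rw [← cycChar_frobenius hq hqT.1 hB hφ, hφ1, Units.val_one]
  exact ⟨⟨ℓ, hℓ, A₀, hA₀, φ₀, hφ₀, hℓp, hℓ_one, hfφ₀, q, hq, hqT.1, hqT.2, hq_one,
    pow_ne_of_frobenius_moves hℓ hq hqT.1 hqT.2 hB hφ hφ1 hβ hφβ,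
    fun _ hB' _ hφ' => f.map_frobenius_eq_zero hq hqT.1 hq_one hB hφ hφ1 hfφ hB' hφ'⟩⟩

end HKummer

end Fermat.CFT
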