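import Fermat.Agent.CFT.Kummer.LocalPower
import Fermat.Agent.CFT.Density.InertiaLift
import Fermat.Agent.CFT.Density.CycloChar

/-!
# Primes of finite Galois subfields of `ℚ̄`, valuations of rationals

`plBelow`: the prime of a finite field below a place, with the action of the decomposition group.
Shared with `CFT/Local`.
-/

set_option autoImplicit false

noncomputable section

open NumberField IsDedekindDomain
open scoped Pointwise

namespace Fermat.CFT

local notation "ℚbar" => AlgebraicClosure ℚ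
local notation "Γℚ" => AlgebraicClosure ℚ ≃ₐ[ℚ] AlgebraicClosure ℚ

section General

variable {F : Type} [Field F] [NumberField F]

/-- The order of a prime number at a prime over it is the ramification index. -/
lemma ord_natCast_prime_of_mem {ℓ : ℕ} (hℓ : ℓ.Prime) (w : Pl F) (hw : (ℓ : 𝓞 F) ∈ w.asIdeal) :
    ord w (ℓ : F) = plRamIdx ℚ w := by
  rw [← map_natCast (algebraMap ℚ F), ord_algebraMap_eq,
    ord_natCast_rat hℓ _ (by rw [asIdeal_plUnder, Ideal.mem_comap, map_natCast]; exact hw), mul_one]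

omit [NumberField F] in
/-- The residue characteristic of a prime is unique. -/
lemma natCast_notMem_of_ne {ℓ n : ℕ} (hℓ : ℓ.Prime) (w : Pl F) (hw : (ℓ : 𝓞 F) ∈ w.asIdeal)
    (hn : ¬ ℓ ∣ n) : (n : 𝓞 F) ∉ w.asIdeal := by
  intro h
  obtain ⟨c, d, hcd⟩ := Nat.isCoprime_iff_coprime.mpr (hℓ.coprime_iff_not_dvd.mpr hn)
  refine w.isPrime.ne_top ((Ideal.eq_top_iff_one _).mpr ?_)
  have := congrArg (fun z : ℤ => (z : 𝓞 F)) hcd
  push_cast at this
  rw [← this]
  exact add_mem (Ideal.mul_mem_left _ _ hw) (Ideal.mul_mem_left _ _ h)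

omit [NumberField F] in
/-- An integer prime to the residue characteristic is not in the prime. -/
lemma intCast_notMem_of_ne {ℓ : ℕ} {n : ℤ} (hℓ : ℓ.Prime) (w : Pl F) (hw : (ℓ : 𝓞 F) ∈ w.asIdeal)
    (hn : ¬ (ℓ : ℤ) ∣ n) : (n : 𝓞 F) ∉ w.asIdeal := by
  intro h
  refine natCast_notMem_of_ne hℓ w hw (n := n.natAbs) (fun h' => hn (Int.natCast_dvd.mpr h')) ?_
  rcases Int.natAbs_eq n with h' | h' <;> rw [h'] at h
  · simpa using h
  · simpa using neg_mem h

/-- An integer prime to the residue characteristic has order zero. -/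
lemma ord_intCast_eq_zero {ℓ : ℕ} {n : ℤ} (hℓ : ℓ.Prime) (w : Pl F)
    (hw : (ℓ : 𝓞 F) ∈ w.asIdeal) (hn : ¬ (ℓ : ℤ) ∣ n) : ord w (n : F) = 0 := by
  have h0 : (n : 𝓞 F) ≠ 0 := fun h => intCast_notMem_of_ne hℓ w hw hn (by rw [h]; exact zero_mem _)
  rw [← map_intCast (algebraMap (𝓞 F) F)]
  exact (ord_algebraMap_eq_zero_iff w h0).mpr (intCast_notMem_of_ne hℓ w hw hn)

/-- The order of a natural number at a prime over `ℓ`. -/
lemma ord_natCast_eq {ℓ : ℕ} (hℓ : ℓ.Prime) (w : Pl F) (hw : (ℓ : 𝓞 F) ∈ w.asIdeal) {n : ℕ}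
    (hn : n ≠ 0) : ord w (n : F) = padicValNat ℓ n * plRamIdx ℚ w := by
  have : Fact ℓ.Prime := ⟨hℓ⟩
  obtain ⟨m, hm, hnm⟩ : ∃ m, ¬ ℓ ∣ m ∧ n = ℓ ^ padicValNat ℓ n * m := by
    obtain ⟨m, hm⟩ := pow_padicValNat_dvd (p := ℓ) (n := n)
    refine ⟨m, fun ⟨k, hk⟩ => ?_, hm⟩
    refine pow_succ_padicValNat_not_dvd (p := ℓ) hn ⟨k, ?_⟩
    rw [pow_succ, mul_assoc, ← hk, ← hm]
  conv_lhs => rw [hnm]
  have hm0 : (m : F) ≠ 0 := Nat.cast_ne_zero.mpr fun h => hm (h ▸ dvd_zero _)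
  have h0 : ord w (m : F) = 0 := by
    rw [← Int.cast_natCast]; exact ord_intCast_eq_zero hℓ w hw (Int.natCast_dvd_natCast.not.mpr hm)
  rw [Nat.cast_mul, Nat.cast_pow]
  rw [ord_mul w (pow_ne_zero _ (Nat.cast_ne_zero.mpr hℓ.ne_zero)) hm0, h0, add_zero, ord_pow,
    ord_natCast_prime_of_mem hℓ w hw]

/-- The order of a rational at a prime over `ℓ`. -/
lemma ord_ratCast_eq {ℓ : ℕ} (hℓ : ℓ.Prime) (w : Pl F) (hw : (ℓ : 𝓞 F) ∈ w.asIdeal) {r : ℚ}
    (hr : r ≠ 0) : ord w (r : F) = plRamIdx ℚ w * padicValRat ℓ r := by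
  have hnum : r.num.natAbs ≠ 0 := Int.natAbs_ne_zero.mpr (Rat.num_ne_zero.mpr hr)
  have habs : ord w (r.num : F) = ord w ((r.num.natAbs : ℕ) : F) := by
    rcases Int.natAbs_eq r.num with h | h
    · conv_lhs => rw [h, Int.cast_natCast]
    · conv_lhs => rw [h, Int.cast_neg, ord_neg, Int.cast_natCast]
  rw [Rat.cast_def, ord_div w (Int.cast_ne_zero.mpr (Rat.num_ne_zero.mpr hr))
    (Nat.cast_ne_zero.mpr r.den_nz), habs, ord_natCast_eq hℓ w hw hnum,
    ord_natCast_eq hℓ w hw r.den_nz, padicValRat, padicValInt]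
  ring

variable [IsGalois ℚ F]

/-- In a Galois field the ramification index is the order of the inertia group. -/
lemma plRamIdx_rat_eq_card (w : Pl F) :
    plRamIdx ℚ w = Nat.card (w.asIdeal.inertia (F ≃ₐ[ℚ] F)) := by
  have : Finite (𝓞 ℚ ⧸ (plUnder ℚ w).asIdeal) :=
    Ideal.finiteQuotientOfFreeOfNeBot _ (plUnder ℚ w).ne_bot
  rw [Ideal.card_inertia_eq_ramificationIdxIn (G := F ≃ₐ[ℚ] F) (plUnder ℚ w).asIdeal w.asIdeal,
    plRamIdx_eq, ← Ideal.ramificationIdxIn_eq_ramificationIdx (plUnder ℚ w).asIdeal w.asIdeal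
      (F ≃ₐ[ℚ] F)]

omit [IsGalois ℚ F] in
/-- Inertia moves units into congruent ones. -/
lemma apply_div_closeOne {w : Pl F} {g : F ≃ₐ[ℚ] F} (hg : ∀ x : 𝓞 F, g • x - x ∈ w.asIdeal)
    {u : F} (hu : u ≠ 0) (hu0 : ord w u = 0) : CloseOne w 1 (g u / u) := by
  rcases ord_sub_pos_of_inertia hg hu hu0 with h | h
  · exact Or.inl (by rw [h, div_self hu])
  · refine Or.inr ?_
    rw [div_sub_one hu, ord_div w (fun e => by simp [e] at h) hu, hu0]
    omega

end General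

section Below

variable (L : IntermediateField ℚ ℚbar) [FiniteDimensional ℚ L]
  {A : ValuationSubring ℚbar} {ℓ : ℕ}

/-- The prime of `L` below a place, as a point. -/
def plBelow (hℓ : ℓ.Prime) (hA : A.LiesOverPrime ℓ) : Pl L :=
  ⟨primeBelow L A, primeBelow_isPrime L A, ne_bot_of_natCast_mem hℓ (natCast_mem_primeBelow L hA)⟩

/-- The prime below a place over `ℓ` contains `ℓ`. -/
lemma natCast_mem_plBelow (hℓ : ℓ.Prime) (hA : A.LiesOverPrime ℓ) :
    (ℓ : 𝓞 L) ∈ (plBelow L hℓ hA).asIdeal := natCast_mem_primeBelow L hA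

variable {L}

/-- Every prime over `ℓ` lies below a place over `ℓ`. -/
lemma exists_plBelow_eq (hℓ : ℓ.Prime) (w : Pl L) (hw : (ℓ : 𝓞 L) ∈ w.asIdeal) :
    ∃ (B : ValuationSubring ℚbar) (hB : B.LiesOverPrime ℓ), plBelow L hℓ hB = w := by
  obtain ⟨B, hB, hBw⟩ := exists_place_over L w.isPrime hℓ hw
  exact ⟨B, hB, HeightOneSpectrum.ext hBw⟩

variable [Normal ℚ L]

/-- The prime below a conjugate place is the conjugate prime. -/
lemma plBelow_smul (hℓ : ℓ.Prime) (hA : A.LiesOverPrime ℓ) (σ : Γℚ) :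
    plBelow L hℓ (liesOverPrime_smul σ hA) = AlgEquiv.restrictNormalHom L σ • plBelow L hℓ hA := by
  refine HeightOneSpectrum.ext ?_
  rw [smul_asIdeal]
  refine SetLike.ext fun x => ?_
  change x ∈ primeBelow L (σ • A) ↔ x ∈ _ • primeBelow L A
  rw [Ideal.mem_pointwise_smul_iff_inv_smul_mem, primeBelow, primeBelow, Ideal.mem_comap,
    Ideal.mem_comap, ← map_inv, algebraMap_restrict_smul, primeOf_smul,
    Ideal.mem_pointwise_smul_iff_inv_smul_mem]

/-- The decomposition group fixes the prime below its place. -/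
lemma restrict_smul_plBelow {σ : Γℚ} (hℓ : ℓ.Prime) (hA : A.LiesOverPrime ℓ)
    (hσ : σ ∈ A.decompositionSubgroup ℚ) :
    AlgEquiv.restrictNormalHom L σ • plBelow L hℓ hA = plBelow L hℓ hA := by
  rw [← plBelow_smul]
  refine HeightOneSpectrum.ext ?_
  change primeBelow L (σ • A) = primeBelow L A
  rw [MulAction.mem_stabilizer_iff.mp hσ]

end Below

end Fermat.CFT
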