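import Fermat.Agent.CFT.Kummer.Ord

/-!
# A cocycle identity for two commuting automorphisms of order `p`

`dvd_ord_relation`: the valuations of the orbit products at a prime fixed by `s ^ a * t ^ b`, used
in `Vanishing`.
-/

set_option autoImplicit false

noncomputable section

namespace Fermat.CFT

variable {F : Type} [Field F] [NumberField F]

/-- `x · g x · ⋯ · g^(n-1) x`. -/
def orbitProd (g : F ≃ₐ[ℚ] F) (x : F) (n : ℕ) : F := ∏ i ∈ Finset.range n, (g ^ i) x

variable {s t : F ≃ₐ[ℚ] F} {y u : F}

/-- One more factor in the orbit product. -/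
lemma orbitProd_succ (g : F ≃ₐ[ℚ] F) (x : F) (n : ℕ) :
    orbitProd g x (n + 1) = orbitProd g x n * (g ^ n) x := Finset.prod_range_succ _ _

/-- The orbit product of a sum of exponents. -/
lemma orbitProd_add (g : F ≃ₐ[ℚ] F) (x : F) (a b : ℕ) :
    orbitProd g x (a + b) = orbitProd g x a * (g ^ a) (orbitProd g x b) := by
  rw [orbitProd, Finset.prod_range_add, orbitProd, orbitProd, map_prod]
  congr 1
  exact Finset.prod_congr rfl fun i _ => by rw [pow_add, AlgEquiv.mul_apply]

/-- The orbit product of a nonzero element is nonzero. -/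
lemma orbitProd_ne_zero {g : F ≃ₐ[ℚ] F} {x : F} (hx : x ≠ 0) (n : ℕ) : orbitProd g x n ≠ 0 :=
  Finset.prod_ne_zero_iff.mpr fun _ _ => (map_ne_zero _).mpr hx

/-- At a fixed prime the order of the orbit product is a multiple of that of the element. -/
lemma ord_orbitProd {g : F ≃ₐ[ℚ] F} {w : Pl F} (hg : g • w = w) {x : F} (hx : x ≠ 0) (n : ℕ) :
    ord w (orbitProd g x n) = n * ord w x := by
  rw [orbitProd, ord_prod w _ _ fun _ _ => (map_ne_zero _).mpr hx]
  have h : ∀ i, (g ^ i) • w = w := fun i => by
    induction i with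
    | zero => rw [pow_zero, one_smul]
    | succ i ih => rw [pow_succ, mul_smul, hg, ih]
  have h' : ∀ i ∈ Finset.range n, ord w ((g ^ i) x) = ord w x := fun i _ => by
    have := ord_smul (g ^ i) w x
    rwa [h, AlgEquiv.smul_def] at this
  rw [Finset.sum_congr rfl h', Finset.sum_const, Finset.card_range, nsmul_eq_mul]

variable (hst : Commute s t) (hyu : t y * u = y * s u)

include hst hyu

/-- The relation between `y` and `u` iterated along `t`. -/
lemma pow_apply_mul_orbitProd (b : ℕ) :
    (t ^ b) y * orbitProd t u b = y * s (orbitProd t u b) := by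
  induction b with
  | zero => simp [orbitProd]
  | succ b ih =>
    rw [orbitProd_succ, map_mul, show s ((t ^ b) u) = (t ^ b) (s u) by
      rw [← AlgEquiv.mul_apply, (hst.pow_right b).eq, AlgEquiv.mul_apply], pow_succ,
      AlgEquiv.mul_apply]
    have h := congrArg (t ^ b) hyu
    rw [map_mul, map_mul] at h
    linear_combination orbitProd t u b * h + (t ^ b) (s u) * ih

/-- The relation between `y` and `u` iterated along `s` and `t`. -/
lemma pow_apply_orbitProd (a b : ℕ) :
    (t ^ b) (orbitProd s y a) * orbitProd t u b =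
      orbitProd s y a * (s ^ a) (orbitProd t u b) := by
  induction a with
  | zero => simp [orbitProd]
  | succ a ih =>
    have h := congrArg (s ^ a) (pow_apply_mul_orbitProd hst hyu b)
    rw [map_mul, map_mul, ← AlgEquiv.mul_apply, (hst.pow_pow a b).eq, AlgEquiv.mul_apply,
      ← AlgEquiv.mul_apply (s ^ a) s, ← pow_succ] at h
    rw [orbitProd_succ, map_mul]
    linear_combination (t ^ b) ((s ^ a) y) * ih + orbitProd s y a * h

/-- The orbit products form a cocycle on the group generated by `s` and `t`. -/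
lemma cocycle_mul (a b a' b' : ℕ) :
    (orbitProd s y a * (s ^ a) (orbitProd t u b)) *
        (s ^ a * t ^ b) (orbitProd s y a' * (s ^ a') (orbitProd t u b')) =
      orbitProd s y (a + a') * (s ^ (a + a')) (orbitProd t u (b + b')) := by
  have h1 : (s ^ a') ((t ^ b) (orbitProd t u b')) = (t ^ b) ((s ^ a') (orbitProd t u b')) := by
    rw [← AlgEquiv.mul_apply, (hst.pow_pow a' b).eq, AlgEquiv.mul_apply]
  have h := congrArg (s ^ a) (pow_apply_orbitProd hst hyu a' b)
  rw [map_mul, map_mul] at h
  rw [orbitProd_add, orbitProd_add, map_mul (s ^ (a + a')), pow_add s a a', AlgEquiv.mul_apply,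
    AlgEquiv.mul_apply, AlgEquiv.mul_apply, map_mul, map_mul, h1]
  linear_combination orbitProd s y a * (s ^ a) ((t ^ b) ((s ^ a') (orbitProd t u b'))) * h

/-- **The valuation relation** at a prime fixed by `s ^ a * t ^ b`. -/
theorem dvd_ord_relation {p : ℕ} (hsp : s ^ p = 1) (htp : t ^ p = 1) (hy : y ≠ 0) (hu : u ≠ 0)
    {J z : F} (hJ : orbitProd s y p = J) (hz : orbitProd t u p = z)
    (a b : ℕ) {w : Pl F} (hw : (s ^ a * t ^ b) • w = w) :
    (p : ℤ) ∣ a * ord w J + b * ord w z := by
  set c := orbitProd s y a * (s ^ a) (orbitProd t u b) with hc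
  have hc0 : c ≠ 0 := mul_ne_zero (orbitProd_ne_zero hy _)
    ((map_ne_zero _).mpr (orbitProd_ne_zero hu _))
  have hn : ∀ n, orbitProd (s ^ a * t ^ b) c n =
      orbitProd s y (n * a) * (s ^ (n * a)) (orbitProd t u (n * b)) := by
    intro n
    induction n with
    | zero => simp [orbitProd]
    | succ n ih =>
      rw [Nat.succ_mul, Nat.succ_mul, ← cocycle_mul hst hyu (n * a) (n * b) a b, ← hc,
        orbitProd_succ, ih, (hst.pow_pow a b).mul_pow, ← pow_mul, ← pow_mul, mul_comm a n,
        mul_comm b n]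
  have hkey := hn p
  have hU : ∀ (g : F ≃ₐ[ℚ] F) (x : F) (k : ℕ), g ^ p = 1 →
      orbitProd g x (p * k) = orbitProd g x p ^ k := by
    intro g x k hg
    induction k with
    | zero => simp [orbitProd]
    | succ k ih =>
      rw [Nat.mul_succ, orbitProd_add, ih, pow_mul, hg, one_pow, AlgEquiv.one_apply, pow_succ]
  rw [hU s y a hsp, hU t u b htp, hJ, hz, pow_mul, hsp, one_pow, AlgEquiv.one_apply] at hkey
  have hJ0 : J ≠ 0 := hJ ▸ orbitProd_ne_zero hy _
  have hz0 : z ≠ 0 := hz ▸ orbitProd_ne_zero hu _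
  have h := congrArg (ord w) hkey
  rw [ord_orbitProd hw hc0, ord_mul w (pow_ne_zero _ hJ0) (pow_ne_zero _ hz0),
    ord_pow, ord_pow] at h
  exact ⟨ord w c, h.symm⟩

end Fermat.CFT
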