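import Fermat.Agent.CFT.Herbrand.Norm

/-!
# An everywhere unramified `χ⁻¹`-character vanishes

Suppose not: then auxiliary primes `ℓ`, `q` and a logarithm modulo `q` exist (`Datum`). In the
bicyclic extension a Jacobi element `J` is a norm, giving an element `z` fixed by `ker cycChar`;
the product of its conjugates is rational. Its logarithm vanishes by local analysis at `q` and is
its valuation at `ℓ` times `log ℓ`, so that valuation is zero modulo `p`; but times `log ℓ` it is
`-f(φ₀)` times the twisted sum of `jacobiVal`, which is nonzero modulo `p`.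
-/

set_option autoImplicit false

noncomputable section

open NumberField
open scoped Pointwise

namespace Fermat.CFT

local notation "ℚbar" => AlgebraicClosure ℚ
local notation "Γℚ" => AlgebraicClosure ℚ ≃ₐ[ℚ] AlgebraicClosure ℚ

namespace HKummer

variable {p : ℕ} [hp : Fact p.Prime] {d : Datum p} {b : Basis d}

/-- The twisted sum of `jacobiVal` is nonzero modulo `p`. -/
lemma jacobiVal_sum_ne_zero (h2 : 2 < p) :
    ∑ c : (ZMod p)ˣ, (c : ZMod p) * ((jacobiVal c : ℤ) : ZMod p) ≠ 0 := by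
  classical
  have : NeZero p := ⟨hp.out.ne_zero⟩
  obtain ⟨h, hh⟩ := hp.out.odd_of_ne_two (by omega)
  have h1 : ∑ c : (ZMod p)ˣ, (c : ZMod p) * ((jacobiVal c : ℤ) : ZMod p) =
      ∑ c ∈ Finset.univ.filter (fun c : (ZMod p)ˣ => 2 * (c : ZMod p).val < p), (c : ZMod p) := by
    rw [Finset.sum_filter]
    refine Finset.sum_congr rfl fun c _ => ?_
    rw [jacobiVal]
    split_ifs <;> simp
  have hnd : ∀ i ∈ Finset.Icc 1 h, ¬ p ∣ i := fun i hi hd => by
    rw [Finset.mem_Icc] at hi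
    have := Nat.le_of_dvd (by omega) hd
    omega
  -- the sum is `1 + ⋯ + h` with `p = 2 h + 1`
  have h3 : ∑ c ∈ Finset.univ.filter (fun c : (ZMod p)ˣ => 2 * (c : ZMod p).val < p), (c : ZMod p) =
      ∑ i ∈ Finset.Icc 1 h, (i : ZMod p) := by
    refine Finset.sum_bij' (fun c _ => (c : ZMod p).val)
      (fun i hi => ZMod.unitOfCoprime i (hp.out.coprime_iff_not_dvd.mpr (hnd i hi)).symm)
      (fun c hc => ?_) (fun i hi => ?_) (fun c _ => ?_) (fun i hi => ?_) (fun c _ => ?_)
    · simp only [Finset.mem_filter, Finset.mem_univ, true_and] at hc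
      rw [Finset.mem_Icc]
      refine ⟨Nat.one_le_iff_ne_zero.mpr fun h0 => c.ne_zero ((ZMod.val_eq_zero _).mp h0), by omega⟩
    · simp only [Finset.mem_filter, Finset.mem_univ, true_and, ZMod.coe_unitOfCoprime]
      rw [Finset.mem_Icc] at hi
      rw [ZMod.val_natCast, Nat.mod_eq_of_lt (by omega)]
      omega
    · exact Units.ext (by rw [ZMod.coe_unitOfCoprime, ZMod.natCast_zmod_val])
    · rw [Finset.mem_Icc] at hi
      rw [ZMod.coe_unitOfCoprime, ZMod.val_natCast, Nat.mod_eq_of_lt (by omega)]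
    · rw [ZMod.natCast_zmod_val]
  -- twice the sum `1 + ⋯ + n` is `n (n + 1)`
  have h4 : ∀ n : ℕ, 2 * ∑ i ∈ Finset.Icc 1 n, (i : ZMod p) = (n : ZMod p) * (n + 1) := by
    intro n
    induction n with
    | zero => simp
    | succ n ih =>
      rw [Finset.sum_Icc_succ_top (by omega), mul_add, ih]
      push_cast
      ring
  -- which is `h (h + 1) / 2`, not zero mod `p`
  rw [h1, h3]
  intro h0
  have h5 := h4 h
  rw [h0, mul_zero] at h5
  rcases mul_eq_zero.mp h5.symm with h6 | h6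
  · rw [ZMod.natCast_eq_zero_iff] at h6
    rcases Nat.eq_zero_or_pos h with rfl | hpos
    · omega
    · have := Nat.le_of_dvd hpos h6; omega
  · have h7 : ((h + 1 : ℕ) : ZMod p) = 0 := by exact_mod_cast h6
    rw [ZMod.natCast_eq_zero_iff] at h7
    have := Nat.le_of_dvd (by omega) h7
    omega

section Relations

variable {J z y u : field d} (hyu : b.t y * u = y * b.s u) (hy : y ≠ 0) (hu : u ≠ 0)
  (hJ : orbitProd b.s y p = J) (hz : orbitProd b.t u p = z)

include hyu hy hz in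
/-- The generator `s` fixes `z`. -/
lemma s_apply_z : b.s z = z := by
  have h1 : ∀ i ∈ Finset.range p,
      b.s ((b.t ^ i) u) * (b.t ^ i) y = (b.t ^ (i + 1)) y * (b.t ^ i) u := by
    intro i _
    rw [← AlgEquiv.mul_apply b.s, (b.commute.pow_right i).eq, AlgEquiv.mul_apply, ← _root_.map_mul,
      pow_succ, AlgEquiv.mul_apply, ← _root_.map_mul, hyu, mul_comm]
  have h3 := Finset.prod_congr rfl h1
  rw [Finset.prod_mul_distrib, Finset.prod_mul_distrib] at h3
  have hshift : ∏ i ∈ Finset.range p, (b.t ^ (i + 1)) y = ∏ i ∈ Finset.range p, (b.t ^ i) y := by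
    have h4 := Finset.prod_range_succ (fun i => (b.t ^ i) y) p
    rw [Finset.prod_range_succ', b.t_pow, pow_zero] at h4
    exact mul_right_cancel₀ (show (1 : field d ≃ₐ[ℚ] field d) y ≠ 0 from hy) h4
  rw [hshift, mul_comm (∏ i ∈ Finset.range p, (b.t ^ i) y) _] at h3
  have h5 := mul_right_cancel₀ (Finset.prod_ne_zero_iff.mpr fun i _ =>
    (_root_.map_ne_zero _).mpr hy) h3
  rw [← hz, orbitProd, map_prod]
  exact h5

include hu hz in
/-- The generator `t` fixes `z`. -/
lemma t_apply_z : b.t z = z := by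
  have h4 := Finset.prod_range_succ (fun i => (b.t ^ i) u) p
  rw [Finset.prod_range_succ', b.t_pow, pow_zero] at h4
  rw [← hz, orbitProd, map_prod]
  have h5 : ∀ i ∈ Finset.range p, b.t ((b.t ^ i) u) = (b.t ^ (i + 1)) u := fun i _ => by
    rw [pow_succ', AlgEquiv.mul_apply]
  rw [Finset.prod_congr rfl h5]
  exact mul_right_cancel₀ (show (1 : field d ≃ₐ[ℚ] field d) u ≠ 0 from hu) h4

include hyu hy hu hz in
/-- The kernel of the cyclotomic character fixes `z`. -/
lemma res_apply_z {γ : Γℚ} (hγ : cycChar p γ = 1) : res d γ z = z := by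
  have hs : b.s ∈ MulAction.stabilizer (field d ≃ₐ[ℚ] field d) z := s_apply_z hyu hy hz
  have ht : b.t ∈ MulAction.stabilizer (field d ≃ₐ[ℚ] field d) z := t_apply_z hu hz
  rw [b.res_eq hγ]
  exact (mul_mem (pow_mem hs _) (pow_mem ht _) :)

include hyu hy hu hJ hz

/-- At a place, for an element of its decomposition group with trivial cyclotomic character, the
valuations of `J` and `z` satisfy a linear relation modulo `p`. -/
lemma ord_relation {ℓ' : ℕ} (hℓ' : ℓ'.Prime) {B : ValuationSubring ℚbar} (hB : B.LiesOverPrime ℓ')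
    {φ : Γℚ} (hφD : φ ∈ B.decompositionSubgroup ℚ) (hφ : cycChar p φ = 1) :
    d.f.toFun φ * ((ord (plBelow (field d) hℓ' hB) J : ℤ) : ZMod p) +
      psi d φ * ((ord (plBelow (field d) hℓ' hB) z : ℤ) : ZMod p) = 0 := by
  have : NeZero p := ⟨hp.out.ne_zero⟩
  have hw := restrict_smul_plBelow (L := field d) hℓ' hB hφD
  change res d φ • _ = _ at hw
  rw [b.res_eq hφ] at hw
  have h := dvd_ord_relation b.commute hyu b.s_pow b.t_pow hy hu hJ hz _ _ hw
  have h' := (ZMod.intCast_zmod_eq_zero_iff_dvd _ p).mpr h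
  push_cast [ZMod.natCast_zmod_val] at h'
  exact h'

/-- Away from `ℓ` and `q` the logarithm kills the valuations of `z`. -/
lemma log_mul_ord_z_eq_zero (hJsupp : ∀ w : Pl (field d), ord w (d.a.ℓ : field d) = 0 → ord w J = 0)
    {ℓ' : ℕ} (hℓ' : ℓ'.Prime) (hne : ℓ' ≠ d.a.ℓ) (hneq : ℓ' ≠ d.a.q) (w : Pl (field d))
    (hw : (ℓ' : 𝓞 (field d)) ∈ w.asIdeal) : d.D.log ℓ' * ((ord w z : ℤ) : ZMod p) = 0 := by
  have : NeZero p := ⟨hp.out.ne_zero⟩
  obtain ⟨B, hB, rfl⟩ := exists_plBelow_eq hℓ' w hw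
  obtain ⟨φ, hφ⟩ := exists_isFrobeniusAt hℓ' hB
  have hχ : cycChar p (φ ^ (p - 1)) = 1 := by
    rw [_root_.map_pow, ← ZMod.card_units p, pow_card_eq_one]
  have h := ord_relation hyu hy hu hJ hz hℓ' hB
    (pow_mem hφ.mem_decompositionSubgroup (p - 1)) hχ
  have hJz : ord (plBelow (field d) hℓ' hB) J = 0 := by
    refine hJsupp _ ?_
    rw [← Int.cast_natCast (R := field d) d.a.ℓ]
    exact ord_intCast_eq_zero hℓ' _ hw (Int.natCast_dvd_natCast.not.mpr fun h' =>
      hne ((Nat.prime_dvd_prime_iff_eq hℓ' d.a.hℓ).mp h'))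
  rw [hJz, Int.cast_zero, mul_zero, zero_add, psi_pow, psi_frobenius d hℓ' hneq hB hφ,
    Nat.cast_sub hp.out.one_lt.le, ZMod.natCast_self, Nat.cast_one, zero_sub] at h
  linear_combination -h

/-- Over `ℓ` the valuations of the conjugates of `z` are read off from those of the Jacobi
element. -/
lemma logEll_mul_ord_res_z (hJval : ∀ γ, ord (w₀ d) (res d γ J) = jacobiVal (cycChar p γ))
    (γ : Γℚ) : logEll d * ((ord (w₀ d) (res d γ z) : ℤ) : ZMod p) =
      -(((cycChar p γ : (ZMod p)ˣ) : ZMod p) * d.f.toFun d.a.φ₀ *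
        ((jacobiVal (cycChar p γ) : ℤ) : ZMod p)) := by
  have : NeZero p := ⟨hp.out.ne_zero⟩
  have hφ := isFrobeniusAt_conj d.a.hℓ d.a.hA₀ d.a.hφ₀ γ⁻¹
  have hχ : cycChar p (γ⁻¹ * d.a.φ₀ * γ⁻¹⁻¹) = 1 := by
    rw [_root_.map_mul, _root_.map_mul, cycChar_phi0, mul_one, ← _root_.map_mul, mul_inv_cancel,
      _root_.map_one]
  have h := ord_relation hyu hy hu hJ hz d.a.hℓ (liesOverPrime_smul γ⁻¹ d.a.hA₀)
    hφ.mem_decompositionSubgroup hχ
  have hord : ∀ x : field d,
      ord (plBelow (field d) d.a.hℓ (liesOverPrime_smul γ⁻¹ d.a.hA₀)) x =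
        ord (w₀ d) (res d γ x) := by
    intro x
    rw [plBelow_smul, ← ord_smul (res d γ), ← mul_smul]
    show ord ((res d γ * res d γ⁻¹) • w₀ d) (res d γ x) = _
    rw [← _root_.map_mul, mul_inv_cancel, _root_.map_one, one_smul]
  rw [hord, hord, hJval, d.f.map_conj _ _ (cycChar_phi0 d), psi_conj, psi_phi0, _root_.map_inv,
    inv_inv] at h
  linear_combination h

end Relations

section Descent

variable {z : field d}

/-- The product of the conjugates of an element fixed by the kernel of the cyclotomic character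
is rational. -/
lemma exists_rat_eq_prod_res [NeZero p] (hzfix : ∀ γ, cycChar p γ = 1 → res d γ z = z)
    {g : (ZMod p)ˣ → Γℚ} (hg : ∀ c, cycChar p (g c) = c) :
    ∃ r : ℚ, (r : field d) = ∏ c, res d (g c) z := by
  set R := ∏ c : (ZMod p)ˣ, res d (g c) z with hR
  have hRfix : ∀ e : field d ≃ₐ[ℚ] field d, e R = R := by
    intro e
    obtain ⟨γ, rfl⟩ := res_surjective d e
    rw [hR, map_prod]
    have h : ∀ c ∈ (Finset.univ : Finset (ZMod p)ˣ),
        res d γ (res d (g c) z) = res d (g (cycChar p γ * c)) z := by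
      intro c _
      have h1 := hzfix ((g (cycChar p γ * c))⁻¹ * (γ * g c)) (by
        rw [_root_.map_mul, _root_.map_inv, _root_.map_mul, hg, hg, inv_mul_cancel])
      rw [_root_.map_mul, _root_.map_inv, AlgEquiv.mul_apply, AlgEquiv.aut_inv,
        AlgEquiv.symm_apply_eq, _root_.map_mul, AlgEquiv.mul_apply] at h1
      exact h1
    rw [Finset.prod_congr rfl h]
    exact Fintype.prod_equiv (Equiv.mulLeft (cycChar p γ)) _ _ fun c => rfl
  obtain ⟨r, hr⟩ := (IsGalois.mem_range_algebraMap_iff_fixed (F := ℚ) R).mpr hRfix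
  exact ⟨r, by rw [← hr, eq_ratCast]⟩

/-- Automorphisms permute the primes over a rational integer. -/
lemma natCast_mem_smul {n : ℕ} (e : field d ≃ₐ[ℚ] field d) {w : Pl (field d)}
    (hw : (n : 𝓞 (field d)) ∈ w.asIdeal) : (n : 𝓞 (field d)) ∈ (e • w).asIdeal := by
  rw [smul_asIdeal, Ideal.mem_pointwise_smul_iff_inv_smul_mem]
  rw [show e⁻¹ • (n : 𝓞 (field d)) = n from
    map_natCast (MulSemiringAction.toRingHom (field d ≃ₐ[ℚ] field d) (𝓞 (field d)) e⁻¹) n]
  exact hw

/-- The logarithm of the descended element is carried by `ℓ`. -/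
lemma ratLog_descended [NeZero p] (h2 : 2 < p) (hz0 : z ≠ 0)
    (hoff : ∀ ℓ' : ℕ, ℓ'.Prime → ℓ' ≠ d.a.ℓ → ℓ' ≠ d.a.q → ∀ w : Pl (field d),
      (ℓ' : 𝓞 (field d)) ∈ w.asIdeal → d.D.log ℓ' * ((ord w z : ℤ) : ZMod p) = 0)
    (g : (ZMod p)ˣ → Γℚ) {r : ℚ} (hr : (r : field d) = ∏ c, res d (g c) z) (hr0 : r ≠ 0) :
    d.D.ratLog r = (padicValRat d.a.ℓ r : ZMod p) * d.D.intLog d.a.ℓ := by
  refine d.D.ratLog_eq_mul h2 hr0 d.a.hℓ fun ℓ' hℓ' hne => ?_
  rcases eq_or_ne ℓ' d.a.q with rfl | hneq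
  · rw [d.D.intLog_eq (k := 1) (n' := 1) (by simp) (fun h1 => d.a.hq.ne_one
      (Nat.eq_one_of_dvd_one (by exact_mod_cast h1))), Int.cast_one, d.D.log_one, mul_zero]
  rw [d.D.intLog_of_not_dvd (Int.natCast_dvd_natCast.not.mpr fun h' =>
    hneq ((Nat.prime_dvd_prime_iff_eq d.a.hq hℓ').mp h').symm), Int.cast_natCast]
  obtain ⟨B, hB⟩ := exists_place (ℓ := ℓ') hℓ'
  set w := plBelow (field d) hℓ' hB
  have hw : (ℓ' : 𝓞 (field d)) ∈ w.asIdeal := natCast_mem_plBelow _ _ _
  have h1 : d.D.log ℓ' * ((ord w (∏ c, res d (g c) z) : ℤ) : ZMod p) = 0 := by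
    rw [ord_prod w _ _ fun c _ => (_root_.map_ne_zero _).mpr hz0, Int.cast_sum, Finset.mul_sum]
    refine Finset.sum_eq_zero fun c _ => ?_
    have h := ord_smul (res d (g c)) ((res d (g c))⁻¹ • w) z
    rw [smul_inv_smul, AlgEquiv.smul_def] at h
    rw [h]
    exact hoff ℓ' hℓ' hne hneq _ (natCast_mem_smul _ hw)
  rw [← hr, ord_ratCast_eq hℓ' w hw hr0, Int.cast_mul, Int.cast_natCast] at h1
  rcases mul_eq_zero.mp h1 with h3 | h3
  · rw [h3, mul_zero]
  rcases mul_eq_zero.mp h3 with h4 | h4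
  · rw [ZMod.natCast_eq_zero_iff] at h4
    exact absurd (Nat.le_of_dvd (plRamIdx_pos w) h4) (not_le.mpr (card_inertia_lt hℓ' hneq hw))
  · rw [h4, zero_mul]

/-- A rational number close to `1` at a prime over `q` has trivial logarithm. -/
lemma ratLog_eq_zero_of_closeOne {x : ℚ} (hx0 : x ≠ 0) {w : Pl (field d)}
    (hw : (d.a.q : 𝓞 (field d)) ∈ w.asIdeal) (hxc : CloseOne w 1 (x : field d)) :
    d.D.ratLog x = 0 := by
  have hord := hxc.ord_eq_zero one_pos
  rw [ord_ratCast_eq d.a.hq w hw hx0] at hord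
  have hv : padicValRat d.a.q x = 0 :=
    (mul_eq_zero.mp hord).resolve_left (Int.natCast_ne_zero.mpr (plRamIdx_pos w).ne')
  have : Fact d.a.q.Prime := ⟨d.a.hq⟩
  have hnum : ¬ (d.a.q : ℤ) ∣ x.num ∧ ¬ d.a.q ∣ x.den := by
    rw [padicValRat, padicValInt] at hv
    constructor
    · intro hd
      rw [Int.natCast_dvd] at hd
      have h1 := one_le_padicValNat_of_dvd (Int.natAbs_ne_zero.mpr (Rat.num_ne_zero.mpr hx0)) hd
      have h3 := dvd_of_one_le_padicValNat (p := d.a.q) (n := x.den) (by omega)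
      exact d.a.hq.ne_one (Nat.eq_one_of_dvd_coprimes x.reduced hd h3)
    · intro hd
      have h1 := one_le_padicValNat_of_dvd x.den_nz hd
      have h3 := dvd_of_one_le_padicValNat (p := d.a.q) (n := x.num.natAbs) (by omega)
      exact d.a.hq.ne_one (Nat.eq_one_of_dvd_coprimes x.reduced h3 hd)
  -- numerator and denominator are congruent modulo `q`
  have hcong : ((x.num : ℤ) : ZMod d.a.q) = ((x.den : ℤ) : ZMod d.a.q) := by
    rw [ZMod.intCast_eq_intCast_iff_dvd_sub]
    rcases hxc with h | h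
    · have : x = 1 := Rat.cast_injective (α := field d) (by rw [h, Rat.cast_one])
      rw [this]; simp
    · by_contra hd
      have hden : (x.den : field d) ≠ 0 := Nat.cast_ne_zero.mpr x.den_nz
      have hsub : (x : field d) - 1 = -(((x.den : ℤ) - x.num : ℤ) : field d) /
          (x.den : field d) := by
        rw [Rat.cast_def, div_sub_one hden]; push_cast; ring
      have hne : (((x.den : ℤ) - x.num : ℤ) : field d) ≠ 0 :=
        Int.cast_ne_zero.mpr fun h0 => hd (by rw [h0]; exact dvd_zero _)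
      have hden0 : ord w (x.den : field d) = 0 := by
        rw [← Int.cast_natCast]
        exact ord_intCast_eq_zero d.a.hq w hw (Int.natCast_dvd_natCast.not.mpr hnum.2)
      rw [hsub, ord_div w (neg_ne_zero.mpr hne) hden, ord_neg, hden0,
        ord_intCast_eq_zero d.a.hq w hw hd] at h
      omega
  rw [DLog.ratLog, d.D.intLog_of_not_dvd hnum.1,
    d.D.intLog_of_not_dvd (Int.natCast_dvd_natCast.not.mpr hnum.2), hcong, sub_self]

/-- Local analysis at `q`: the logarithm of the descended element vanishes. -/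
lemma ratLog_descended_eq_zero [NeZero p] (b : Basis d) {u : field d} (hu : u ≠ 0)
    (g : (ZMod p)ˣ → Γℚ) {r : ℚ} (hr : (r : field d) = ∏ c, res d (g c) (orbitProd b.t u p))
    (hr0 : r ≠ 0) : d.D.ratLog r = 0 := by
  classical
  set z := orbitProd b.t u p with hz
  have hz0 : z ≠ 0 := orbitProd_ne_zero hu p
  obtain ⟨B, hB⟩ := exists_place (ℓ := d.a.q) d.a.hq
  set w := plBelow (field d) d.a.hq hB
  have hw : (d.a.q : 𝓞 (field d)) ∈ w.asIdeal := natCast_mem_plBelow _ _ _
  -- each factor is a power of `q` times a `p`-th power times something close to `1`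
  have hloc : ∀ c : (ZMod p)ˣ, ∃ (k : ℤ) (T : ℚ), T ≠ 0 ∧
      CloseOne w 1 (res d (g c) z / (d.a.q : field d) ^ k / (T : field d) ^ p) := by
    intro c
    obtain ⟨k, T, hT, hclose⟩ := exists_rat_closeOne b hu (natCast_mem_smul (res d (g c))⁻¹ hw)
    rw [← hz] at hclose
    refine ⟨k, T, hT, ?_⟩
    rcases hclose with h | h
    · left
      have h' := congrArg (res d (g c)) h
      rwa [map_div₀, map_div₀, map_zpow₀, map_natCast, _root_.map_pow, map_ratCast,
        _root_.map_one] at h'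
    · right
      have h' := ord_smul (res d (g c)) ((res d (g c))⁻¹ • w)
        (z / (d.a.q : field d) ^ k / (T : field d) ^ p - 1)
      rw [smul_inv_smul, AlgEquiv.smul_def, map_sub, map_div₀, map_div₀, map_zpow₀, map_natCast,
        _root_.map_pow, map_ratCast, _root_.map_one] at h'
      rw [h']
      exact h
  choose k T hT hclose using hloc
  have hq0 : (d.a.q : field d) ≠ 0 := Nat.cast_ne_zero.mpr d.a.hq.ne_zero
  set x : ℚ := r / (d.a.q : ℚ) ^ (∑ c, k c) / (∏ c, T c) ^ p with hx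
  have hT0 : ∀ c, (T c : field d) ≠ 0 := fun c => Rat.cast_ne_zero.mpr (hT c)
  have hzpow : ∀ s : Finset (ZMod p)ˣ,
      ∏ c ∈ s, (d.a.q : field d) ^ k c = (d.a.q : field d) ^ ∑ c ∈ s, k c := by
    intro s
    induction s using Finset.induction with
    | empty => simp
    | insert c s hc ih => rw [Finset.prod_insert hc, Finset.sum_insert hc, ih, zpow_add₀ hq0]
  have hxF : (x : field d) =
      ∏ c, res d (g c) z / (d.a.q : field d) ^ k c / (T c : field d) ^ p := by
    rw [Finset.prod_div_distrib, Finset.prod_div_distrib, hzpow, Finset.prod_pow, ← hr, hx]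
    push_cast
    rfl
  -- so the corrected rational is close to one
  have hxc : CloseOne w 1 (x : field d) := by
    rw [hxF]
    exact CloseOne.prod one_pos _ _ (fun c _ => div_ne_zero (div_ne_zero
      ((_root_.map_ne_zero _).mpr hz0) (zpow_ne_zero _ hq0)) (pow_ne_zero _ (hT0 c)))
      fun c _ => hclose c
  have hq0' : (d.a.q : ℚ) ≠ 0 := Nat.cast_ne_zero.mpr d.a.hq.ne_zero
  have hP0 : ∏ c, T c ≠ 0 := Finset.prod_ne_zero_iff.mpr fun c _ => hT c
  have hx0 : x ≠ 0 := div_ne_zero (div_ne_zero hr0 (zpow_ne_zero _ hq0')) (pow_ne_zero _ hP0)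
  have hrx : r = x * ((d.a.q : ℚ) ^ (∑ c, k c) * (∏ c, T c) ^ p) := by
    rw [hx]; field_simp
  -- the logarithm kills all three
  rw [hrx, d.D.ratLog_mul hx0 (mul_ne_zero (zpow_ne_zero _ hq0') (pow_ne_zero _ hP0)),
    d.D.ratLog_mul (zpow_ne_zero _ hq0') (pow_ne_zero _ hP0),
    ratLog_eq_zero_of_closeOne hx0 hw hxc, d.D.ratLog_zpow hq0',
    DLog.ratLog_self, ← zpow_natCast, d.D.ratLog_zpow hP0, Int.cast_natCast, ZMod.natCast_self]
  ring

end Descent

/-- There is no auxiliary datum for an odd `p`. -/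
theorem false_of_datum (h2 : 2 < p) (d : Datum p) : False := by
  classical
  have : NeZero p := ⟨hp.out.ne_zero⟩
  obtain ⟨b⟩ := nonempty_basis h2 d
  obtain ⟨J, hJ0, hJfix, hJsupp, hJval⟩ := exists_jacobi (d := d) h2
  obtain ⟨y, u, hy, hu, hyu, hJ⟩ := exists_cochain b h2 hJ0 hJfix hJsupp
  set z := orbitProd b.t u p with hz
  have hz0 : z ≠ 0 := orbitProd_ne_zero hu p
  -- the descended element
  choose g hg using cycChar_surjective p
  obtain ⟨r, hr⟩ := exists_rat_eq_prod_res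
    (fun γ hγ => res_apply_z (b := b) hyu hy hu hz.symm hγ) hg
  have hr0 : r ≠ 0 := fun h => Finset.prod_ne_zero_iff.mpr
    (fun c _ => (_root_.map_ne_zero (res d (g c))).mpr hz0) (by rw [← hr, h, Rat.cast_zero])
  have hlog := ratLog_descended h2 hz0
    (fun _ hℓ' hne hneq w hw =>
      log_mul_ord_z_eq_zero (b := b) hyu hy hu hJ hz.symm hJsupp hℓ' hne hneq w hw) g hr hr0
  -- conclusion
  rw [ratLog_descended_eq_zero b hu g hr hr0,
    d.D.intLog_of_not_dvd (Int.natCast_dvd_natCast.not.mpr fun h =>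
    d.a.hqℓ ((Nat.prime_dvd_prime_iff_eq d.a.hq d.a.hℓ).mp h)), Int.cast_natCast] at hlog
  change (0 : ZMod p) = _ * logEll d at hlog
  have hv : (padicValRat d.a.ℓ r : ZMod p) = 0 :=
    (mul_eq_zero.mp hlog.symm).resolve_right (logEll_ne_zero d)
  have hsum : ((ord (w₀ d) (r : field d) : ℤ) : ZMod p) = 0 := by
    rw [ord_ratCast_eq d.a.hℓ (w₀ d) ell_mem_w₀ hr0, ram_w₀, Nat.cast_one, one_mul, hv]
  apply jacobiVal_sum_ne_zero (p := p) h2
  have hkey : logEll d * ((ord (w₀ d) (r : field d) : ℤ) : ZMod p) =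
      -(d.f.toFun d.a.φ₀ * ∑ c : (ZMod p)ˣ, (c : ZMod p) * ((jacobiVal c : ℤ) : ZMod p)) := by
    rw [hr, ord_prod (w₀ d) _ _ fun c _ => (_root_.map_ne_zero _).mpr hz0, Int.cast_sum,
      Finset.mul_sum, Finset.mul_sum, ← Finset.sum_neg_distrib]
    refine Finset.sum_congr rfl fun c _ => ?_
    rw [logEll_mul_ord_res_z (b := b) hyu hy hu hJ hz.symm hJval, hg]
    ring
  rw [hsum, mul_zero, eq_comm, neg_eq_zero] at hkey
  exact (mul_eq_zero.mp hkey).resolve_left d.a.hfφ₀

/-- **Herbrand's theorem for the `χ⁻¹`-component**: an everywhere unramified character of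
`ker cycChar` in that component vanishes. -/
theorem eq_zero (h2 : 2 < p) (f : HKummer p) {σ : Γℚ} (hσ : cycChar p σ = 1) : f.toFun σ = 0 := by
  by_contra h
  obtain ⟨a⟩ := f.exists_aux hσ h
  have : Fact a.q.Prime := ⟨a.hq⟩
  have hdvd : p ∣ a.q - 1 := by
    rw [← ZMod.natCast_eq_zero_iff, Nat.cast_sub a.hq.one_lt.le, a.hq_one, Nat.cast_one, sub_self]
  obtain ⟨D⟩ := exists_dlog hdvd
  exact false_of_datum h2 ⟨f, a, D⟩

end HKummer

end Fermat.CFT
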