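import Fermat.Prelude.Def_ExtCitation_AdmissibleExtension_v2
import Fermat.Agent.CFT.Herbrand.Vanishing

/-!
# Admissible extensions of `μ_p` by `ℤ/p` split

In coordinates the extension is given by a function on the Galois group which is an everywhere
unramified character on the kernel of the cyclotomic one; Herbrand's theorem from
`CFT/Herbrand/Vanishing` kills it, and the resulting coboundary gives a global complement.
-/

set_option autoImplicit false
open ExtCitation

namespace Fermat.CFT.AdmExt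

local notation "ℚbar" => AlgebraicClosure ℚ
local notation "Γℚ" => AlgebraicClosure ℚ ≃ₐ[ℚ] AlgebraicClosure ℚ

variable {p : ℕ} [Fact p.Prime] {V : Type} [AddCommGroup V] [Module (ZMod p) V]
  [DistribMulAction Γℚ V] [SMulCommClass Γℚ (ZMod p) V] {C : Submodule (ZMod p) V} {v₀ e : V}
  {c : Γℚ → ZMod p}

omit [DistribMulAction Γℚ V] [SMulCommClass Γℚ (ZMod p) V] in
/-- In a plane over `ZMod p`, a generator of a line `C` and a vector outside it give coordinates. -/
lemma exists_coordinates (hsub : Nat.card C = p) (htot : Nat.card V = p ^ 2) :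
    ∃ e v₀ : V, e ∈ C ∧ v₀ ∉ C ∧ (∀ x ∈ C, ∃ a : ZMod p, x = a • e) ∧
      (∀ a a' b b' : ZMod p, a • v₀ + a' • e = b • v₀ + b' • e → a = b ∧ a' = b') ∧
      ∀ x : V, ∃ a a' : ZMod p, x = a • v₀ + a' • e := by
  have hp : p.Prime := Fact.out
  have : NeZero p := ⟨hp.ne_zero⟩
  have hVfin : Finite V := Nat.finite_of_card_ne_zero (by
    rw [htot]; exact pow_ne_zero _ hp.ne_zero)
  obtain ⟨e, heC, he0⟩ : ∃ e ∈ C, e ≠ (0 : V) := by
    refine (Submodule.ne_bot_iff C).mp fun h => ?_
    rw [h] at hsub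
    simp at hsub
    exact hp.one_lt.ne hsub
  obtain ⟨v₀, hv₀⟩ : ∃ v : V, v ∉ C := by
    by_contra hno
    push Not at hno
    rw [Submodule.eq_top_iff'.mpr hno, Nat.card_congr Submodule.topEquiv.toEquiv, htot] at hsub
    have := Nat.pow_right_injective hp.two_le (hsub.trans (pow_one p).symm)
    omega
  have hsmul : ∀ a : ZMod p, a • e = 0 → a = 0 := fun a h => by
    by_contra ha
    exact he0 (by simpa [smul_smul, inv_mul_cancel₀ ha] using congrArg (a⁻¹ • ·) h)
  -- the coordinates are unique, so by counting they exist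
  have huniq : ∀ a a' b b' : ZMod p,
      a • v₀ + a' • e = b • v₀ + b' • e → a = b ∧ a' = b' := by
    intro a a' b b' h
    have h' : (a - b) • v₀ + (a' - b') • e = 0 := by
      rw [sub_smul, sub_smul, sub_add_sub_comm, h, sub_self]
    have ha : a - b = 0 := by
      by_contra ha
      refine hv₀ ?_
      have h'' : (a - b) • v₀ ∈ C := by
        rw [eq_neg_of_add_eq_zero_left h']; exact neg_mem (C.smul_mem _ heC)
      simpa [smul_smul, inv_mul_cancel₀ ha] using C.smul_mem (a - b)⁻¹ h''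
    rw [ha, zero_smul, zero_add] at h'
    exact ⟨sub_eq_zero.mp ha, sub_eq_zero.mp (hsmul _ h')⟩
  refine ⟨e, v₀, heC, hv₀, fun x hx => ?_, huniq, fun x => ?_⟩
  · have hb := (Nat.bijective_iff_injective_and_card
      (fun a : ZMod p => (⟨a • e, C.smul_mem a heC⟩ : C))).mpr ⟨fun a a' h => by
      have h' : a • e = a' • e := congrArg Subtype.val h
      exact sub_eq_zero.mp (hsmul _ (by rw [sub_smul, h', sub_self])), by
        rw [Nat.card_zmod]; exact hsub.symm⟩
    obtain ⟨a, ha⟩ := hb.2 ⟨x, hx⟩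
    exact ⟨a, (congrArg Subtype.val ha).symm⟩
  · have hb := (Nat.bijective_iff_injective_and_card
      (fun a : ZMod p × ZMod p => a.1 • v₀ + a.2 • e)).mpr ⟨fun a a' h =>
        Prod.ext (huniq _ _ _ _ h).1 (huniq _ _ _ _ h).2, by
        rw [Nat.card_prod, Nat.card_zmod, htot, sq]⟩
    obtain ⟨a, ha⟩ := hb.2 x
    exact ⟨a.1, a.2, ha.symm⟩

/-- In these coordinates `σ` acts by a triangular matrix with diagonal `(cycChar σ, 1)`. -/
lemma exists_action (hadm : IsAdmissibleExtensionCts p V C) (heC : e ∈ C)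
    (hC : ∀ x ∈ C, ∃ a : ZMod p, x = a • e) (v₀ : V) :
    ∃ c : Γℚ → ZMod p, ∀ (σ : Γℚ) (a a' : ZMod p), σ • (a • v₀ + a' • e) =
      (a * ((cycChar p σ : (ZMod p)ˣ) : ZMod p)) • v₀ + (a * c σ + a') • e := by
  have hc : ∀ σ : Γℚ, ∃ a : ZMod p,
      σ • v₀ = ((cycChar p σ : (ZMod p)ˣ) : ZMod p) • v₀ + a • e := by
    intro σ
    obtain ⟨a, ha⟩ := hC _ (hadm.cyclo_quot σ v₀)
    refine ⟨a, ?_⟩
    rw [cycloExp_cast] at ha
    rw [← ha]; abel
  choose c hc using hc
  refine ⟨c, fun σ a a' => ?_⟩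
  rw [smul_add, hadm.fixed_sub σ _ (C.smul_mem a' heC), smul_comm σ a v₀, hc, smul_add, smul_smul,
    smul_smul, add_smul, add_assoc]

variable (huniq : ∀ a a' b b' : ZMod p, a • v₀ + a' • e = b • v₀ + b' • e → a = b ∧ a' = b')
  (hact : ∀ (σ : Γℚ) (a a' : ZMod p), σ • (a • v₀ + a' • e) =
    (a * ((cycChar p σ : (ZMod p)ˣ) : ZMod p)) • v₀ + (a * c σ + a') • e)

include huniq hact in
omit [SMulCommClass Γℚ (ZMod p) V] in
/-- The off-diagonal entry is a cocycle. -/
lemma action_mul (σ τ : Γℚ) :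
    c (σ * τ) = ((cycChar p τ : (ZMod p)ˣ) : ZMod p) * c σ + c τ := by
  have h := hact (σ * τ) 1 0
  rw [mul_smul, hact τ, hact σ] at h
  simpa using ((huniq _ _ _ _ h).2).symm

include huniq hact in
omit [SMulCommClass Γℚ (ZMod p) V] in
/-- An element fixing `v₀` has trivial matrix. -/
lemma action_eq_one_of_fixed {σ : Γℚ} (h : σ • v₀ = v₀) :
    cycChar p σ = 1 ∧ c σ = 0 := by
  have h' := hact σ 1 0
  rw [one_smul, zero_smul, add_zero, h, one_mul, one_mul, add_zero] at h'
  have h0 := huniq 1 0 ((cycChar p σ : (ZMod p)ˣ) : ZMod p) (c σ)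
    (by rw [one_smul, zero_smul, add_zero]; exact h')
  exact ⟨Units.ext h0.1.symm, h0.2.symm⟩

include huniq hact in
/-- The off-diagonal entry dies on inertia in `ker cycChar`: `V` is unramified outside `p` and
split at `p`. -/
lemma action_eq_zero_of_inertia (hadm : IsAdmissibleExtensionCts p V C) (heC : e ∈ C)
    (hv₀ : v₀ ∉ C) (hV : ∀ x : V, ∃ a a' : ZMod p, x = a • v₀ + a' • e) {ℓ : ℕ} (hℓ : ℓ.Prime)
    {A : ValuationSubring ℚbar} (hA : A.LiesOverPrime ℓ) {σ : Γℚ}
    (hσ : σ ∈ A.inertiaSubgroupIn ℚ) (hσ1 : cycChar p σ = 1) : c σ = 0 := by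
  rcases eq_or_ne ℓ p with rfl | hne
  · have hD : σ ∈ A.decompositionSubgroup ℚ := by
      obtain ⟨g, -, rfl⟩ := hσ
      exact g.2
    obtain ⟨C', hC', hcompl⟩ := hadm.locally_split A hA
    obtain ⟨u, hu, hu0⟩ : ∃ u ∈ C', u ≠ (0 : V) := by
      refine (Submodule.ne_bot_iff C').mp fun h => hv₀ ?_
      have htop := hcompl.sup_eq_top
      rw [h, sup_bot_eq] at htop
      rw [htop]; exact Submodule.mem_top
    obtain ⟨a, a', rfl⟩ := hV u
    have ha : a ≠ 0 := fun h => hu0 (by
      refine (Submodule.disjoint_def.mp hcompl.disjoint) _ ?_ hu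
      rw [h, zero_smul, zero_add]; exact C.smul_mem a' heC)
    have h1 := sub_mem (hC' σ hD _ hu) hu
    rw [hact, hσ1, Units.val_one, mul_one, add_smul, add_sub_add_left_eq_sub,
      add_sub_cancel_right] at h1
    have h2 := (huniq 0 _ 0 0 (by
      rw [(Submodule.disjoint_def.mp hcompl.disjoint) _ (C.smul_mem _ heC) h1, zero_smul,
        zero_smul, add_zero])).2
    exact (mul_eq_zero.mp h2).resolve_left ha
  · exact (action_eq_one_of_fixed huniq hact
      (hadm.unramified_outside ℓ hℓ hne A hA σ hσ v₀)).2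

include huniq hact in
/-- The off-diagonal entry is zero on `ker cycChar`, by Herbrand's theorem. -/
lemma action_eq_zero (h3 : 3 ≤ p) (hadm : IsAdmissibleExtensionCts p V C) (heC : e ∈ C)
    (hv₀ : v₀ ∉ C) (hV : ∀ x : V, ∃ a a' : ZMod p, x = a • v₀ + a' • e) {σ : Γℚ}
    (hσ : cycChar p σ = 1) : c σ = 0 := by
  have hcmul := action_mul huniq hact
  let U : Subgroup Γℚ :=
    { carrier := {σ | ∀ v : V, σ • v = v}
      one_mem' := fun v => one_smul _ v
      mul_mem' := fun {a b} ha hb v => by rw [mul_smul, hb v, ha v]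
      inv_mem' := fun {a} ha v => by
        conv_lhs => rw [← ha v]
        rw [inv_smul_smul] }
  let F : HKummer p :=
    { toFun := c
      map_mul := fun σ τ _ hτ => by rw [hcmul, hτ, Units.val_one, one_mul]
      map_conj := fun g τ hτ => by
        have h1 := hcmul (g * τ) g⁻¹
        rw [hcmul g τ, hτ, Units.val_one, one_mul] at h1
        have h2 := hcmul g g⁻¹
        rw [mul_inv_cancel, (action_eq_one_of_fixed huniq hact (one_smul Γℚ v₀)).2] at h2
        rw [map_inv] at h1 h2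
        rw [h1]
        linear_combination -h2
      open_ker := ⟨U, hadm.open_kernel, fun σ hσ => action_eq_one_of_fixed huniq hact (hσ v₀)⟩
      unr := fun ℓ hℓ A hA σ hσ hσ1 =>
        action_eq_zero_of_inertia huniq hact hadm heC hv₀ hV hℓ hA hσ hσ1 }
  exact HKummer.eq_zero (by omega) F hσ

/-- For odd `p`, a cocycle vanishing on `ker cycChar` is a coboundary, as `cycChar` takes the
value `2`. -/
lemma exists_coboundary (h3 : 3 ≤ p)
    (hcmul : ∀ σ τ : Γℚ,
      c (σ * τ) = ((cycChar p τ : (ZMod p)ˣ) : ZMod p) * c σ + c τ)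
    (hzero : ∀ σ : Γℚ, cycChar p σ = 1 → c σ = 0) :
    ∃ b : ZMod p, ∀ g : Γℚ, c g = (((cycChar p g : (ZMod p)ˣ) : ZMod p) - 1) * b := by
  have hp : p.Prime := Fact.out
  obtain ⟨g₀, hg₀⟩ := cycChar_surjective p (ZMod.unitOfCoprime 2
    ((Nat.coprime_primes Nat.prime_two hp).mpr (by omega)))
  set χ₀ : ZMod p := ((cycChar p g₀ : (ZMod p)ˣ) : ZMod p) with hχ₀
  have hχ : χ₀ - 1 ≠ 0 := by
    rw [hχ₀, hg₀, ZMod.coe_unitOfCoprime, sub_ne_zero]
    intro h
    have h' : ((2 : ℕ) : ZMod p) = ((1 : ℕ) : ZMod p) := by rw [h, Nat.cast_one]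
    rw [ZMod.natCast_eq_natCast_iff', Nat.mod_eq_of_lt (by omega),
      Nat.mod_eq_of_lt (by omega)] at h'
    omega
  refine ⟨c g₀ * (χ₀ - 1)⁻¹, fun g => ?_⟩
  set χg : ZMod p := ((cycChar p g : (ZMod p)ˣ) : ZMod p) with hχg
  have hcomm : c (g₀ * g) = c (g * g₀) := by
    have h1 := hcmul (g₀ * g * (g * g₀)⁻¹) (g * g₀)
    rw [inv_mul_cancel_right, hzero (g₀ * g * (g * g₀)⁻¹) (by
      rw [map_mul, map_mul, map_inv, map_mul, mul_comm (cycChar p g), mul_inv_cancel]),
      mul_zero, zero_add] at h1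
    exact h1
  rw [hcmul, hcmul] at hcomm
  change χg * c g₀ + c g = χ₀ * c g + c g₀ at hcomm
  field_simp
  linear_combination -hcomm

/-- For odd `p`, every admissible extension of `μ_p` by `ℤ/p` (`ℤ/p` the stable subspace) splits
over `ℚ`. -/
theorem extVanishingCts {p : ℕ} [Fact p.Prime] (h3 : 3 ≤ p) :
    ExtCitation.ExtVanishingCts p := by
  intro V _ _ _ _ C hadm
  obtain ⟨e, v₀, heC, hv₀, hC, huniq, hV⟩ := exists_coordinates hadm.card_sub hadm.card_total
  obtain ⟨c, hact⟩ := exists_action hadm heC hC v₀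
  obtain ⟨b, hb⟩ := exists_coboundary h3 (action_mul huniq hact)
    fun σ hσ => action_eq_zero huniq hact h3 hadm heC hv₀ hV hσ
  -- the line through `v₀ + b e` is a global complement
  set u := (1 : ZMod p) • v₀ + b • e with hu
  have hug : ∀ g : Γℚ, g • u = ((cycChar p g : (ZMod p)ˣ) : ZMod p) • u := by
    intro g
    rw [hu, hact, smul_add, smul_smul, smul_smul, one_mul, one_mul, mul_one, hb g]
    congr 2
    ring
  refine ⟨Submodule.span (ZMod p) {u}, fun g x hx => ?_, ?_⟩
  · obtain ⟨a, rfl⟩ := Submodule.mem_span_singleton.mp hx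
    rw [smul_comm g a u, hug g, smul_smul]
    exact Submodule.smul_mem _ _ (Submodule.mem_span_singleton_self u)
  · refine ⟨Submodule.disjoint_def.mpr fun x hxC hxu => ?_, codisjoint_iff.mpr ?_⟩
    · obtain ⟨a, rfl⟩ := Submodule.mem_span_singleton.mp hxu
      obtain ⟨a', ha'⟩ := hC _ hxC
      rw [hu, smul_add, smul_smul, smul_smul, mul_one] at ha'
      have h := (huniq a (a * b) 0 a' (by rw [zero_smul, zero_add]; exact ha')).1
      rw [h, zero_smul]
    · rw [Submodule.eq_top_iff']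
      intro x
      obtain ⟨a, a', rfl⟩ := hV x
      refine Submodule.mem_sup.mpr ⟨(a' - a * b) • e, C.smul_mem _ heC, a • u,
        Submodule.smul_mem _ _ (Submodule.mem_span_singleton_self u), ?_⟩
      rw [hu, smul_add, smul_smul, smul_smul, mul_one, sub_smul]; abel

end Fermat.CFT.AdmExt
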