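import Fermat.Agent.CFT.Herbrand.AuxPrimes
import Fermat.Agent.CFT.Herbrand.DLog

/-!
# The auxiliary bicyclic extension

Its Galois group has the coordinates given by the tame character at `q` and the character to be
killed (`exists_basis`); `Local` and `Norm` work in it.
-/

set_option autoImplicit false

noncomputable section

namespace Fermat.CFT

local notation "ℚbar" => AlgebraicClosure ℚ
local notation "Γℚ" => AlgebraicClosure ℚ ≃ₐ[ℚ] AlgebraicClosure ℚ

namespace HKummer

/-- The first auxiliary data together with a logarithm modulo the auxiliary prime. -/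
structure Datum (p : ℕ) [Fact p.Prime] where
  /-- The unramified character. -/
  f : HKummer p
  /-- The auxiliary primes. -/
  a : Aux f
  /-- A logarithm modulo the second auxiliary prime. -/
  D : DLog p a.q

variable {p : ℕ} [hp : Fact p.Prime] (d : Datum p)

/-- The auxiliary prime is prime. -/
instance Datum.factPrime : Fact d.a.q.Prime := ⟨d.a.hq⟩

/-- The character of the tame auxiliary extension. -/
def psi (σ : Γℚ) : ZMod p := d.D.log ((cycChar d.a.q σ : (ZMod d.a.q)ˣ) : ZMod d.a.q)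

/-- The tame character is additive. -/
lemma psi_mul (σ τ : Γℚ) : psi d (σ * τ) = psi d σ + psi d τ := by
  rw [psi, psi, psi, _root_.map_mul, Units.val_mul, d.D.log_mul _ _ (Units.ne_zero _)
    (Units.ne_zero _)]

/-- The tame character vanishes at one. -/
lemma psi_one : psi d 1 = 0 := by
  rw [psi, _root_.map_one, Units.val_one, d.D.log_one]

/-- The tame character of an inverse. -/
lemma psi_inv (σ : Γℚ) : psi d σ⁻¹ = -psi d σ := by
  have h := psi_mul d σ⁻¹ σ
  rw [inv_mul_cancel, psi_one] at h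
  linear_combination -h

/-- The tame character of a power. -/
lemma psi_pow (σ : Γℚ) (n : ℕ) : psi d (σ ^ n) = n * psi d σ := by
  induction n with
  | zero => rw [pow_zero, psi_one, Nat.cast_zero, zero_mul]
  | succ n ih => rw [pow_succ, psi_mul, ih]; push_cast; ring

/-- The tame character is invariant under conjugation. -/
lemma psi_conj (g σ : Γℚ) : psi d (g * σ * g⁻¹) = psi d σ := by
  rw [psi_mul, psi_mul, psi_inv]; ring

/-- The tame character is unramified away from `q`. -/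
lemma psi_eq_zero_of_inertia {ℓ : ℕ} (hℓ : ℓ.Prime) (hne : ℓ ≠ d.a.q) {A : ValuationSubring ℚbar}
    (hA : A.LiesOverPrime ℓ) {σ : Γℚ} (hσ : σ ∈ A.inertiaSubgroupIn ℚ) : psi d σ = 0 := by
  rw [psi, cycChar_eq_one_of_mem_inertia hℓ hne hA hσ, Units.val_one, d.D.log_one]

/-- The tame character of a Frobenius is the logarithm of its prime. -/
lemma psi_frobenius {ℓ : ℕ} (hℓ : ℓ.Prime) (hne : ℓ ≠ d.a.q) {A : ValuationSubring ℚbar}
    (hA : A.LiesOverPrime ℓ) {σ : Γℚ} (hσ : A.IsFrobeniusAt σ ℓ) : psi d σ = d.D.log ℓ := by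
  rw [psi, cycChar_frobenius hℓ hne hA hσ]

/-- The subgroup cutting out the auxiliary field. -/
def kerSubgroup : Subgroup Γℚ where
  carrier := {σ | cycChar p σ = 1 ∧ d.f.toFun σ = 0 ∧ psi d σ = 0}
  one_mem' := ⟨_root_.map_one _, d.f.map_one, psi_one d⟩
  mul_mem' := fun {σ τ} h h' => ⟨by rw [_root_.map_mul, h.1, h'.1, one_mul],
    by rw [d.f.map_mul _ _ h.1 h'.1, h.2.1, h'.2.1, add_zero],
    by rw [psi_mul, h.2.2, h'.2.2, add_zero]⟩
  inv_mem' := fun {σ} h => ⟨by rw [_root_.map_inv, h.1, inv_one],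
    by rw [d.f.map_inv h.1, h.2.1, neg_zero], by rw [psi_inv, h.2.2, neg_zero]⟩

/-- The subgroup cutting out the auxiliary field is normal. -/
lemma kerSubgroup_normal : (kerSubgroup d).Normal := ⟨fun σ h g => ⟨by
    rw [_root_.map_mul, _root_.map_mul, _root_.map_inv, h.1, mul_one, mul_inv_cancel],
    by rw [d.f.map_conj g σ h.1, h.2.1, mul_zero], by rw [psi_conj, h.2.2]⟩⟩

/-- The subgroup cutting out the auxiliary field is open. -/
lemma kerSubgroup_isOpen : IsOpen (kerSubgroup d : Set Γℚ) := by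
  obtain ⟨U, hUo, hU⟩ := d.f.open_ker
  refine Subgroup.isOpen_mono (H₁ := U ⊓ (cycChar d.a.q).ker) (fun σ hσ => ?_) ?_
  · obtain ⟨h1, h2⟩ := hU σ hσ.1
    refine ⟨h1, h2, ?_⟩
    rw [psi, MonoidHom.mem_ker.mp hσ.2, Units.val_one, d.D.log_one]
  · rw [Subgroup.coe_inf]
    exact hUo.inter (isOpen_cycChar_ker _)

/-- The fixed field of `kerSubgroup d`: where `cycChar`, the character and `psi` are trivial. -/
def field : IntermediateField ℚ ℚbar := IntermediateField.fixedField (kerSubgroup d)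

/-- The auxiliary field is fixed exactly by the subgroup cutting it out. -/
lemma fixingSubgroup_field : (field d).fixingSubgroup = kerSubgroup d :=
  InfiniteGalois.fixingSubgroup_fixedField
    ⟨kerSubgroup d, Subgroup.isClosed_of_isOpen _ (kerSubgroup_isOpen d)⟩

/-- The auxiliary field is finite over `ℚ`. -/
instance field_finiteDimensional : FiniteDimensional ℚ (field d) := by
  rw [← InfiniteGalois.isOpen_iff_finite, fixingSubgroup_field]
  exact kerSubgroup_isOpen d

/-- The auxiliary field is Galois over `ℚ`. -/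
instance field_isGalois : IsGalois ℚ (field d) := by
  have h := (InfiniteGalois.normal_iff_isGalois (field d)).mp
    (by rw [fixingSubgroup_field]; exact kerSubgroup_normal d)
  convert h using 1
  exact Algebra.algebra_ext _ _ fun r => by simp

/-- Restriction to the auxiliary field. -/
def res : Γℚ →* (field d ≃ₐ[ℚ] field d) := AlgEquiv.restrictNormalHom (field d)

/-- Restriction to the auxiliary field is surjective. -/
lemma res_surjective : Function.Surjective (res d) := AlgEquiv.restrictNormalHom_surjective ℚbar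

/-- The kernel of restriction to the auxiliary field. -/
lemma res_eq_one_iff (σ : Γℚ) : res d σ = 1 ↔ σ ∈ kerSubgroup d := by
  rw [res, restrict_eq_one_iff, fixingSubgroup_field]

/-- Restriction acts as the element does. -/
lemma res_apply_coe (σ : Γℚ) (x : field d) : (res d σ x : ℚbar) = σ x :=
  AlgEquiv.restrictNormal_commutes σ (field d) x

/-- Two elements restrict equally exactly when their quotient is in the kernel. -/
lemma res_eq_res_iff (σ τ : Γℚ) :
    res d σ = res d τ ↔ σ * τ⁻¹ ∈ kerSubgroup d := by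
  rw [← res_eq_one_iff, _root_.map_mul, _root_.map_inv, mul_inv_eq_one]

/-- Elements fixing `ζ_p` with equal values of both characters restrict equally. -/
lemma res_eq_of {σ τ : Γℚ} (hσ : cycChar p σ = 1) (hτ : cycChar p τ = 1)
    (hf : d.f.toFun σ = d.f.toFun τ) (hψ : psi d σ = psi d τ) : res d σ = res d τ :=
  (res_eq_res_iff d σ τ).mpr ⟨by rw [_root_.map_mul, _root_.map_inv, hσ, hτ, inv_one, mul_one],
    by rw [d.f.map_mul _ _ hσ (by rw [_root_.map_inv, hτ, inv_one]), d.f.map_inv hτ, hf,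
      add_neg_cancel],
    by rw [psi_mul, psi_inv, hψ, add_neg_cancel]⟩

variable (h2 : 2 < p)

/-- The two auxiliary primes differ. -/
lemma ell_ne_q : d.a.ℓ ≠ d.a.q := d.a.hqℓ.symm

/-- The prime `ℓ` is nonzero modulo `q`. -/
lemma ell_cast_ne_zero : (d.a.ℓ : ZMod d.a.q) ≠ 0 := by
  rw [Ne, ZMod.natCast_eq_zero_iff]
  exact fun h => d.a.hqℓ ((Nat.prime_dvd_prime_iff_eq d.a.hq d.a.hℓ).mp h)

/-- The logarithm of `ℓ`. -/
def logEll : ZMod p := d.D.log d.a.ℓ

/-- The logarithm of `ℓ` does not vanish. -/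
lemma logEll_ne_zero : logEll d ≠ 0 := fun h => by
  obtain ⟨y, hy⟩ := d.D.exists_pow _ (ell_cast_ne_zero d) h
  exact d.a.hnpow y hy

/-- The tame character at the chosen Frobenius. -/
lemma psi_phi0 : psi d d.a.φ₀ = logEll d := psi_frobenius d d.a.hℓ (ell_ne_q d) d.a.hA₀ d.a.hφ₀

/-- The chosen Frobenius fixes the `p`-th roots of unity. -/
lemma cycChar_phi0 : cycChar p d.a.φ₀ = 1 :=
  Units.ext (by rw [cycChar_frobenius d.a.hℓ d.a.hℓp d.a.hA₀ d.a.hφ₀, d.a.hℓ_one, Units.val_one])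

include h2 in
/-- Elements realising the two coordinates. -/
lemma exists_basis : ∃ σ τ : Γℚ, cycChar p σ = 1 ∧ cycChar p τ = 1 ∧ d.f.toFun σ = 1 ∧
    psi d σ = 0 ∧ d.f.toFun τ = 0 ∧ psi d τ = 1 := by
  obtain ⟨g, hg⟩ := cycChar_surjective p (ZMod.unitOfCoprime 2
    ((Nat.coprime_primes Nat.prime_two hp.out).mpr (by omega)))
  set a₀ := d.f.toFun d.a.φ₀
  set b₀ := logEll d
  set χ' : ZMod p := (((cycChar p g)⁻¹ : (ZMod p)ˣ) : ZMod p) with hχ'
  have hχ : χ' ≠ 1 := by
    intro h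
    have h1 : cycChar p g = 1 := inv_eq_one.mp (Units.ext h)
    rw [hg] at h1
    have h2' : ((2 : ℕ) : ZMod p) = ((1 : ℕ) : ZMod p) := by
      have := congrArg (fun u : (ZMod p)ˣ => (u : ZMod p)) h1
      simpa using this
    rw [ZMod.natCast_eq_natCast_iff', Nat.mod_eq_of_lt h2, Nat.mod_eq_of_lt (by omega)] at h2'
    omega
  have ha₀ : a₀ ≠ 0 := d.a.hfφ₀
  have hb₀ : b₀ ≠ 0 := logEll_ne_zero d
  set φ₁ := g * d.a.φ₀ * g⁻¹
  have hφ₀ := cycChar_phi0 d
  have hφ₁ : cycChar p φ₁ = 1 := by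
    rw [_root_.map_mul, _root_.map_mul, _root_.map_inv, hφ₀, mul_one, mul_inv_cancel]
  -- words in the Frobenius and a conjugate of it, with independent coordinates
  have key : ∀ i j : ℕ, cycChar p (d.a.φ₀ ^ i * φ₁ ^ j) = 1 ∧
      d.f.toFun (d.a.φ₀ ^ i * φ₁ ^ j) = (i + j * χ') * a₀ ∧
      psi d (d.a.φ₀ ^ i * φ₁ ^ j) = (i + j : ZMod p) * b₀ := by
    intro i j
    have h1 : cycChar p (d.a.φ₀ ^ i) = 1 := by rw [_root_.map_pow, hφ₀, one_pow]
    have h2' : cycChar p (φ₁ ^ j) = 1 := by rw [_root_.map_pow, hφ₁, one_pow]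
    refine ⟨by rw [_root_.map_mul, h1, h2', one_mul], ?_, ?_⟩
    · rw [d.f.map_mul _ _ h1 h2', d.f.map_pow hφ₀, d.f.map_pow hφ₁, d.f.map_conj g _ hφ₀]; ring
    · rw [psi_mul, psi_pow, psi_pow, psi_conj, psi_phi0]; ring
  have h1χ : 1 - χ' ≠ 0 := sub_ne_zero.mpr hχ.symm
  have : NeZero p := ⟨hp.out.ne_zero⟩
  obtain ⟨e1, e2, e3⟩ := key (a₀⁻¹ * (1 - χ')⁻¹).val (-(a₀⁻¹ * (1 - χ')⁻¹)).val
  obtain ⟨e4, e5, e6⟩ := key (-χ' * b₀⁻¹ * (1 - χ')⁻¹).val (b₀⁻¹ * (1 - χ')⁻¹).val
  simp only [ZMod.natCast_val, ZMod.cast_id', id_eq] at e2 e3 e5 e6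
  refine ⟨_, _, e1, e4, ?_, ?_, ?_, ?_⟩
  · rw [e2]; field_simp; ring
  · rw [e3]; ring
  · rw [e5]; ring
  · rw [e6]; field_simp; ring

end HKummer

end Fermat.CFT
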