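import Mathlib

/-!
# Fixed points of Frobenius in a domain

In a domain of characteristic `q` the fixed points of `x ↦ x ^ q` come from `ℤ`
(`exists_natCast_eq_of_pow_eq`).
-/

set_option autoImplicit false

noncomputable section

namespace Fermat.CFT

/-- In a domain of characteristic `q`, a fixed point of `x ↦ x^q` comes from `ℤ`. -/
lemma exists_natCast_eq_of_pow_eq {R : Type*} [CommRing R] [IsDomain R] (q : ℕ) [hq : Fact q.Prime]
    [CharP R q] {x : R} (hx : x ^ q = x) : ∃ c : ℕ, (c : R) = x := by
  classical
  by_contra hno
  push Not at hno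
  set ι : ZMod q →+* R := ZMod.castHom dvd_rfl R
  let P : Polynomial R := Polynomial.X ^ q - Polynomial.X
  have hdeg : P.natDegree = q := by
    rw [Polynomial.natDegree_sub_eq_left_of_natDegree_lt] <;> simp [hq.out.one_lt]
  have hP : P ≠ 0 := fun h => hq.out.ne_zero (by rw [← hdeg, h, Polynomial.natDegree_zero])
  have hsub : insert x (Finset.univ.image ι) ⊆ P.roots.toFinset := by
    intro y hy
    rw [Multiset.mem_toFinset, Polynomial.mem_roots hP]
    rcases Finset.mem_insert.mp hy with rfl | hy
    · rw [Polynomial.IsRoot.def, Polynomial.eval_sub, Polynomial.eval_pow,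
        Polynomial.eval_X, hx, sub_self]
    · obtain ⟨c, -, rfl⟩ := Finset.mem_image.mp hy
      rw [Polynomial.IsRoot.def, Polynomial.eval_sub, Polynomial.eval_pow, Polynomial.eval_X,
        ← map_pow ι, ZMod.pow_card, sub_self]
  have h := (Finset.card_le_card hsub).trans
    ((Multiset.toFinset_card_le _).trans (Polynomial.card_roots' P))
  rw [Finset.card_insert_of_notMem, Finset.card_image_of_injective _ ι.injective, Finset.card_univ,
    ZMod.card, hdeg] at h
  · omega
  · intro hmem
    obtain ⟨c, -, hc⟩ := Finset.mem_image.mp hmem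
    exact hno c.val (by rw [← hc, ← map_natCast ι, ZMod.natCast_zmod_val])

end Fermat.CFT
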