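import Fermat.Agent.CFT.Herbrand.Basic

/-!
# The factorisation of a Jacobi sum

`exists_jacobi_element`: an element of known valuations at the primes over `ℓ`; `Norm` shows that it
is a norm.
-/

set_option autoImplicit false

noncomputable section

open NumberField
open scoped Pointwise

namespace Fermat.CFT

/-- Over a finite field with `ℓ` elements, `∑ aⁿ (1-a)ⁿ = 0` for `2n < ℓ - 1`. -/
lemma sum_pow_mul_one_sub_pow {k : Type*} [Field k] [Fintype k] (n : ℕ)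
    (h : 2 * n < Fintype.card k - 1) : ∑ a : k, a ^ n * (1 - a) ^ n = 0 := by
  have h1 : ∀ a : k, a ^ n * (1 - a) ^ n =
      ∑ i ∈ Finset.range (n + 1), ((-1) ^ i * (n.choose i : k)) * a ^ (n + i) := by
    intro a
    rw [sub_eq_add_neg, add_comm, add_pow, Finset.mul_sum]
    refine Finset.sum_congr rfl fun i _ => ?_
    rw [one_pow, mul_one, neg_pow, pow_add]
    ring
  rw [Finset.sum_congr rfl fun a _ => h1 a, Finset.sum_comm]
  refine Finset.sum_eq_zero fun i hi => ?_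
  have hi' := Finset.mem_range.mp hi
  rw [← Finset.mul_sum, show ∑ a : k, a ^ (n + i) = 0 from
    FiniteField.sum_pow_lt_card_sub_one (K := k) (n + i) (by omega), mul_zero]

variable {K : Type} [Field K] [NumberField K] {p : ℕ} [hp : Fact p.Prime] {ζ : K}

/-- A prime number `ℓ ≠ p` is unramified in a `p`-th cyclotomic field. -/
lemma ord_natCast_eq_one_of_absNorm [IsGalois ℚ K] (hζ : IsPrimitiveRoot ζ p)
    (hext : ∀ g : K ≃ₐ[ℚ] K, g ζ = ζ → g = 1) {ℓ : ℕ} (hℓ : ℓ.Prime) (hℓp : ℓ ≠ p) (v : Pl K)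
    (hlv : (ℓ : 𝓞 K) ∈ v.asIdeal) : ord v (ℓ : K) = 1 := by
  have hvp : ord v (p : K) = 0 := by
    rw [← map_natCast (algebraMap (𝓞 K) K)]
    refine (ord_algebraMap_eq_zero_iff v (Nat.cast_ne_zero.mpr hp.out.ne_zero)).mpr fun hpv => ?_
    obtain ⟨c, d, hcd⟩ := Nat.isCoprime_iff_coprime.mpr ((Nat.coprime_primes hℓ hp.out).mpr hℓp)
    refine v.isPrime.ne_top ((Ideal.eq_top_iff_one _).mpr ?_)
    have := congrArg (fun z : ℤ => (z : 𝓞 K)) hcd
    push_cast at this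
    rw [← this]
    exact add_mem (Ideal.mul_mem_left _ _ hlv) (Ideal.mul_mem_left _ _ hpv)
  -- inertia fixes `ζ`, which stays primitive modulo `v`, so is trivial
  have hram : plRamIdx ℚ v = 1 := by
    refine plRamIdx_eq_one_of_inertia v fun g hg => hext g ?_
    obtain ⟨c, hc, hc'⟩ := hζ.eq_pow_of_pow_eq_one
      (show g ζ ^ p = 1 by rw [← map_pow, hζ.pow_eq_one, map_one])
    by_contra hne
    have hc1 : c ≠ 1 := fun h => hne (by rw [← hc', h, pow_one])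
    have hzero : ord v (g ζ - ζ) = 0 := by
      rw [← hc']
      nth_rw 2 [← pow_one ζ]
      rw [ord_zeta_pow_sub hζ v hc hp.out.one_lt hc1, zetaOrd_eq_zero_of_ord hζ v hvp]
      simp
    let z : 𝓞 K := ⟨ζ, zeta_isIntegral hζ⟩
    have hne' : g • z - z ≠ 0 := fun h => sub_ne_zero.mpr hne (by
      rw [show g ζ - ζ = ((g • z - z : 𝓞 K) : K) from rfl, h]
      exact map_zero _)
    have hpos := (ord_algebraMap_pos_iff v hne').mpr (hg z)
    rw [show ((g • z - z : 𝓞 K) : K) = g ζ - ζ from rfl] at hpos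
    omega
  rw [← map_natCast (algebraMap ℚ K), ord_algebraMap_eq, hram, Nat.cast_one, one_mul]
  -- and over `ℚ` the order of `ℓ` is one
  exact ord_natCast_rat hℓ _ (by rw [asIdeal_plUnder, Ideal.mem_comap, map_natCast]; exact hlv)

/-- A `p`-th root of unity stays primitive modulo a prime not above `p`. -/
lemma isPrimitiveRoot_mk_zeta {ℓ : ℕ} (hl : ℓ.Prime) (hℓp : ℓ ≠ p) (hζ : IsPrimitiveRoot ζ p)
    (v : Pl K) (hlv : (ℓ : 𝓞 K) ∈ v.asIdeal) :
    IsPrimitiveRoot (Ideal.Quotient.mk v.asIdeal (⟨ζ, zeta_isIntegral hζ⟩ : 𝓞 K)) p := by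
  set k := 𝓞 K ⧸ v.asIdeal
  have : v.asIdeal.IsMaximal := v.isMaximal
  let _ : Field k := Ideal.Quotient.field v.asIdeal
  have hchar : CharP k ℓ := (CharP.charP_iff_prime_eq_zero hl).mpr (by
    rw [← map_natCast (Ideal.Quotient.mk v.asIdeal), Ideal.Quotient.eq_zero_iff_mem]; exact hlv)
  set mk := Ideal.Quotient.mk v.asIdeal
  let z : 𝓞 K := ⟨ζ, zeta_isIntegral hζ⟩
  have hz : IsPrimitiveRoot z p :=
    IsPrimitiveRoot.of_map_of_injective (f := algebraMap (𝓞 K) K) hζ RingOfIntegers.coe_injective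
  have hvp : ord v (p : K) = 0 := by
    rw [← map_natCast (algebraMap (𝓞 K) K)]
    refine (ord_algebraMap_eq_zero_iff v (Nat.cast_ne_zero.mpr hp.out.ne_zero)).mpr fun hpv => ?_
    have h0 : ((p : ℕ) : k) = 0 := by
      rw [← map_natCast mk]; exact Ideal.Quotient.eq_zero_iff_mem.mpr hpv
    exact hℓp ((Nat.prime_dvd_prime_iff_eq hl hp.out).mp ((CharP.cast_eq_zero_iff k ℓ p).mp h0))
  have hz1 : mk z ≠ 1 := by
    rw [← map_one mk, Ne, Ideal.Quotient.eq]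
    intro h
    have hne : z - 1 ≠ 0 := sub_ne_zero.mpr (hz.ne_one hp.out.one_lt)
    have h' := (ord_algebraMap_pos_iff v hne).mpr h
    rw [show ((z - 1 : 𝓞 K) : K) = ζ ^ 1 - ζ ^ 0 by rw [pow_one, pow_zero]; rfl,
      ord_zeta_pow_sub hζ v hp.out.one_lt hp.out.pos one_ne_zero,
      zetaOrd_eq_zero_of_ord hζ v hvp] at h'
    simp at h'
  change IsPrimitiveRoot (mk z) p
  rw [← orderOf_eq_prime (p := p) (by rw [← map_pow, hz.pow_eq_one, map_one]) hz1]
  exact IsPrimitiveRoot.orderOf _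

omit [NumberField K] in
/-- The Teichmüller character of order `p` at a prime of norm `ℓ = p m + 1`. -/
lemma exists_teichmuller_char {ℓ m : ℕ} [hl : Fact ℓ.Prime] (hm : ℓ - 1 = p * m) (hm0 : 0 < m)
    {z : 𝓞 K} (hz : IsPrimitiveRoot z p) {k : Type} [CommRing k] [IsDomain k] {mk : 𝓞 K →+* k}
    (hzk : IsPrimitiveRoot (mk z) p) (r : ZMod ℓ →+* k) :
    ∃ χ : MulChar (ZMod ℓ) (𝓞 K), (∀ a : (ZMod ℓ)ˣ, ∃ j : ℕ, χ a = z ^ j) ∧
      (∀ a : ZMod ℓ, mk (χ a) = r a ^ m) ∧ χ ^ p = 1 ∧ ∀ c : ℕ, ¬ p ∣ c → χ ^ c ≠ 1 := by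
  classical
  obtain ⟨g, hg⟩ := IsCyclic.exists_generator (α := (ZMod ℓ)ˣ)
  have hcardu : Fintype.card (ZMod ℓ)ˣ = p * m := by rw [ZMod.card_units, hm]
  obtain ⟨i, hi, hi'⟩ := hzk.eq_pow_of_pow_eq_one (show (r (g : ZMod ℓ) ^ m) ^ p = 1 by
    rw [← pow_mul, mul_comm, ← hcardu, ← map_pow, ← Units.val_pow_eq_pow_val, pow_card_eq_one,
      Units.val_one, map_one])
  let zu : (𝓞 K)ˣ := (hz.isUnit hp.out.ne_zero).unit
  have hzu : zu ^ i ∈ rootsOfUnity (Fintype.card (ZMod ℓ)ˣ) (𝓞 K) := by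
    refine (mem_rootsOfUnity _ _).mpr (Units.ext ?_)
    rw [hcardu, ← pow_mul, Units.val_pow_eq_pow_val, IsUnit.unit_spec, Units.val_one, mul_left_comm,
      pow_mul, hz.pow_eq_one, one_pow]
  -- send a generator to the root of unity reducing to its `m`-th power
  let χ : MulChar (ZMod ℓ) (𝓞 K) := MulChar.ofRootOfUnity hzu hg
  have hχg : χ g = z ^ i := by
    change MulChar.ofRootOfUnity hzu hg g = _
    rw [MulChar.ofRootOfUnity_spec, Units.val_pow_eq_pow_val, IsUnit.unit_spec]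
  have hval : ∀ a : (ZMod ℓ)ˣ, ∃ j : ℕ, χ a = z ^ j ∧ mk (z ^ j) = r (a : ZMod ℓ) ^ m := by
    intro a
    obtain ⟨k', hk'⟩ := (mem_powers_iff_mem_zpowers).mpr (hg a)
    change g ^ k' = a at hk'
    subst hk'
    refine ⟨i * k', ?_, ?_⟩
    · rw [Units.val_pow_eq_pow_val, map_pow, hχg, pow_mul]
    · rw [map_pow, pow_mul, hi', Units.val_pow_eq_pow_val, map_pow, ← pow_mul, ← pow_mul, mul_comm]
  -- the character reduces to the `m`-th power
  have hχ : ∀ a : ZMod ℓ, mk (χ a) = r a ^ m := by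
    intro a
    by_cases ha : IsUnit a
    · obtain ⟨u, rfl⟩ := ha
      obtain ⟨j, hj, hj'⟩ := hval u
      rw [hj, hj']
    · rw [MulChar.map_nonunit _ ha, map_zero,
        not_ne_iff.mp (mt isUnit_iff_ne_zero.mpr ha), map_zero, zero_pow hm0.ne']
  -- it has exact order `p`, as the generator has order `p m`
  refine ⟨χ, fun a => (hval a).imp fun j h => h.1, hχ, ?_, ?_⟩
  · ext a
    obtain ⟨j, hj, -⟩ := hval a
    rw [MulChar.pow_apply_coe, MulChar.one_apply_coe, hj, ← pow_mul, mul_comm, pow_mul,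
      hz.pow_eq_one, one_pow]
  · intro c hc h
    have h1 : (z ^ i) ^ c = 1 := by rw [← hχg, ← MulChar.pow_apply_coe, h, MulChar.one_apply_coe]
    rw [← pow_mul, hz.pow_eq_one_iff_dvd] at h1
    rcases hp.out.dvd_mul.mp h1 with hpi | hpc
    · have hi0 : i = 0 := Nat.eq_zero_of_dvd_of_lt hpi hi
      rw [hi0, pow_zero, eq_comm, ← map_pow, ← map_one r] at hi'
      have hgm : g ^ m = 1 := Units.ext (by
        rw [Units.val_pow_eq_pow_val, Units.val_one]; exact r.injective hi')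
      have hord : orderOf g = p * m := by
        rw [orderOf_eq_card_of_forall_mem_zpowers hg, Nat.card_eq_fintype_card, hcardu]
      have hd := orderOf_dvd_of_pow_eq_one hgm
      rw [hord] at hd
      have := Nat.le_of_dvd hm0 hd
      have := hp.out.two_le
      nlinarith
    · exact hc hpc

/-- Conjugate Jacobi sums multiply to `ℓ`. -/
lemma jacobiSum_pow_mul_jacobiSum_pow_sub (h2 : 2 < p) {ℓ : ℕ} [hl : Fact ℓ.Prime]
    {χ : MulChar (ZMod ℓ) (𝓞 K)} (hχp : χ ^ p = 1) (hpne : ∀ c : ℕ, ¬ p ∣ c → χ ^ c ≠ 1)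
    {c : ℕ} (hc : 0 < c) (hcp : c < p) :
    ((jacobiSum (χ ^ c) (χ ^ c) : 𝓞 K) : K) * (jacobiSum (χ ^ (p - c)) (χ ^ (p - c)) : 𝓞 K)
      = (ℓ : K) := by
  have hinj := RingOfIntegers.coe_injective (K := K)
  set χK := χ.ringHomComp (algebraMap (𝓞 K) K)
  have hJ : ∀ d, ((jacobiSum (χ ^ d) (χ ^ d) : 𝓞 K) : K) = jacobiSum (χK ^ d)
      (χK ^ d) := fun d => by
    rw [MulChar.ringHomComp_pow, jacobiSum_ringHomComp]
  have hne : ∀ d, ¬ p ∣ d → χK ^ d ≠ 1 := fun d hd => by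
    rw [MulChar.ringHomComp_pow, MulChar.ringHomComp_ne_one_iff hinj]
    exact hpne d hd
  have hinv : χK ^ (p - c) = (χK ^ c)⁻¹ := by
    refine eq_inv_of_mul_eq_one_left ?_
    rw [← pow_add, Nat.sub_add_cancel hcp.le, MulChar.ringHomComp_pow, hχp,
      MulChar.ringHomComp_one]
  have hndvd : ¬ p ∣ c := fun h => absurd (Nat.le_of_dvd hc h) (by omega)
  rw [hJ, hJ, hinv, jacobiSum_mul_jacobiSum_inv (F' := K)
    (by rw [ringChar.eq_zero, ZMod.ringChar_zmod_n]; exact hl.out.ne_zero.symm)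
    (hne c hndvd) (hne c hndvd) (by
      rw [← pow_add]
      exact hne _ fun h => by
        rcases hp.out.dvd_mul.mp (show p ∣ 2 * c by rwa [two_mul]) with h' | h'
        · exact absurd (Nat.le_of_dvd two_pos h') (by omega)
        · exact hndvd h'), ZMod.card]

/-- The Galois group permutes the Jacobi sums. -/
lemma galois_jacobiSum (hζ : IsPrimitiveRoot ζ p) {ℓ : ℕ} [Fact ℓ.Prime]
    {χ : MulChar (ZMod ℓ) (𝓞 K)}
    (hval : ∀ a : (ZMod ℓ)ˣ, ∃ j : ℕ, χ a = (⟨ζ, zeta_isIntegral hζ⟩ : 𝓞 K) ^ j)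
    (g' : K ≃ₐ[ℚ] K) {c : ℕ} (hgc : g' ζ = ζ ^ c) :
    g' ((jacobiSum (χ ^ 1) (χ ^ 1) : 𝓞 K) : K) = ((jacobiSum (χ ^ c) (χ ^ c) : 𝓞 K) : K) := by
  set χK := χ.ringHomComp (algebraMap (𝓞 K) K)
  have hgχ : χK.ringHomComp (g' : K →+* K) = χK ^ c := by
    ext a
    obtain ⟨j, hj⟩ := hval a
    rw [MulChar.pow_apply_coe]
    change g' ((χ a : 𝓞 K) : K) = ((χ a : 𝓞 K) : K) ^ c
    rw [hj]
    change g' (ζ ^ j) = (ζ ^ j) ^ c
    rw [map_pow, hgc, ← pow_mul, ← pow_mul, mul_comm]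
  change g' (algebraMap (𝓞 K) K (jacobiSum (χ ^ 1) (χ ^ 1))) =
    algebraMap (𝓞 K) K (jacobiSum (χ ^ c) (χ ^ c))
  rw [pow_one, ← jacobiSum_ringHomComp, ← jacobiSum_ringHomComp, ← MulChar.ringHomComp_pow,
    ← hgχ, jacobiSum_ringHomComp χK χK (g' : K →+* K)]
  rfl

/-- **The factorisation of the Jacobi sum** at a prime of norm `ℓ ≡ 1 (mod p)`. -/
theorem exists_jacobi_element [IsGalois ℚ K] (h2 : 2 < p) (hζ : IsPrimitiveRoot ζ p)
    (hext : ∀ g : K ≃ₐ[ℚ] K, g ζ = ζ → g = 1) {ℓ : ℕ} [hl : Fact ℓ.Prime] (hℓ : p ∣ ℓ - 1)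
    (v : Pl K) (hlv : (ℓ : 𝓞 K) ∈ v.asIdeal) :
    ∃ J : K, J ≠ 0 ∧ (∀ w : Pl K, ord w (ℓ : K) = 0 → ord w J = 0) ∧
      ∀ (g : K ≃ₐ[ℚ] K) (c : ℕ), g ζ = ζ ^ c → 0 < c → c < p →
        ord v (g J) = if 2 * c < p then 1 else 0 := by
  classical
  have hℓp : ℓ ≠ p := by
    rintro rfl
    have := Nat.le_of_dvd (by have := hl.out.two_le; omega) hℓ
    omega
  obtain ⟨m, hm⟩ := hℓ
  have hm0 : 0 < m := by
    rcases Nat.eq_zero_or_pos m with rfl | h
    · have := hl.out.two_le; omega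
    · exact h
  -- the residue field
  set k := 𝓞 K ⧸ v.asIdeal
  have : v.asIdeal.IsMaximal := v.isMaximal
  let _ : Field k := Ideal.Quotient.field v.asIdeal
  have hchar : CharP k ℓ := (CharP.charP_iff_prime_eq_zero hl.out).mpr (by
    rw [← map_natCast (Ideal.Quotient.mk v.asIdeal), Ideal.Quotient.eq_zero_iff_mem]; exact hlv)
  let r : ZMod ℓ →+* k := ZMod.castHom dvd_rfl k
  set mk := Ideal.Quotient.mk v.asIdeal
  let z : 𝓞 K := ⟨ζ, zeta_isIntegral hζ⟩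
  have hz : IsPrimitiveRoot z p :=
    IsPrimitiveRoot.of_map_of_injective (f := algebraMap (𝓞 K) K) hζ RingOfIntegers.coe_injective
  obtain ⟨χ, hval, hχ, hχp, hpne⟩ := exists_teichmuller_char hm hm0 hz (mk := mk)
    (isPrimitiveRoot_mk_zeta hl.out hℓp hζ v hlv) r
  -- the Jacobi sums
  let J : ℕ → 𝓞 K := fun c => jacobiSum (χ ^ c) (χ ^ c)
  have hsmall : ∀ c : ℕ, 0 < c → 2 * c < p → J c ∈ v.asIdeal := by
    intro c hc hc2
    rw [← Ideal.Quotient.eq_zero_iff_mem]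
    change mk (∑ a : ZMod ℓ, (χ ^ c) a * (χ ^ c) (1 - a)) = 0
    rw [map_sum]
    simp only [MulChar.pow_apply' _ hc.ne', map_mul, map_pow, hχ]
    rw [show ∑ a : ZMod ℓ, (r a ^ m) ^ c * (r (1 - a) ^ m) ^ c =
      r (∑ a : ZMod ℓ, a ^ (m * c) * (1 - a) ^ (m * c)) by simp [map_sum, pow_mul],
      sum_pow_mul_one_sub_pow _ (by rw [ZMod.card, hm]; nlinarith), map_zero]
  have hprod : ∀ c : ℕ, 0 < c → c < p → (J c : K) * (J (p - c) : K) = (ℓ : K) :=
    fun c hc hcp => jacobiSum_pow_mul_jacobiSum_pow_sub h2 hχp hpne hc hcp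
  have hl0 : (ℓ : K) ≠ 0 := Nat.cast_ne_zero.mpr hl.out.ne_zero
  have hJ0 : ∀ c : ℕ, 0 < c → c < p → (J c : K) ≠ 0 := fun c hc hcp h => by
    have := hprod c hc hcp
    rw [h, zero_mul] at this
    exact hl0 this.symm
  have hadd : ∀ (w : Pl K) (c : ℕ), 0 < c → c < p →
      ord w (J c : K) + ord w (J (p - c) : K) = ord w (ℓ : K) := fun w c hc hcp => by
    rw [← ord_mul w (hJ0 c hc hcp) (hJ0 (p - c) (by omega) (by omega)), hprod c hc hcp]
  have hvℓ : ord v (ℓ : K) = 1 := ord_natCast_eq_one_of_absNorm hζ hext hl.out hℓp v hlv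
  have hlow : ∀ c : ℕ, 0 < c → 2 * c < p → ord v (J c : K) = 1 := by
    intro c hc hc2
    have h1 := (ord_algebraMap_pos_iff v (fun h => hJ0 c hc (by omega)
      (by rw [h]; exact map_zero _))).mpr
      (hsmall c hc hc2)
    have h2 := ord_algebraMap_nonneg v (J (p - c))
    have := hadd v c hc (by omega)
    omega
  refine ⟨(J 1 : K), hJ0 1 one_pos hp.out.one_lt, fun w hw => ?_, fun g' c hgc hc hcp => ?_⟩
  · have h1 := hadd w 1 one_pos hp.out.one_lt
    have := ord_algebraMap_nonneg w (J 1)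
    have := ord_algebraMap_nonneg w (J (p - 1))
    omega
  · rw [show g' (J 1 : K) = (J c : K) from galois_jacobiSum hζ hval g' hgc]
    split_ifs with hlt
    · exact hlow c hc hlt
    · have hne2 : 2 * c ≠ p := fun h => by
        rcases (Nat.dvd_prime hp.out).mp ⟨c, h.symm⟩ with h' | h' <;> omega
      have h1 := hadd v c hc hcp
      rw [hlow (p - c) (by omega) (by omega), hvℓ] at h1
      omega

end Fermat.CFT
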