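import Fermat.Agent.CFT.Herbrand.Field
import Fermat.Agent.CFT.Herbrand.Cocycle
import Fermat.Agent.CFT.Kummer.Auxiliary
import Fermat.Agent.CFT.Herbrand.FrobFixed

/-!
# Local behaviour of the auxiliary extension

`exists_rat_closeOne`: at `q` the product of the conjugates is a rational up to `p`-th powers, which
computes its logarithm in `Vanishing`.
-/

set_option autoImplicit false

noncomputable section

open NumberField
open scoped Pointwise

namespace Fermat.CFT

local notation "ℚbar" => AlgebraicClosure ℚ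
local notation "Γℚ" => AlgebraicClosure ℚ ≃ₐ[ℚ] AlgebraicClosure ℚ

namespace HKummer

variable {p : ℕ} [hp : Fact p.Prime]

/-- Generators of the two coordinates of the auxiliary extension. -/
structure Basis (d : Datum p) where
  /-- The generator `σ` of the first coordinate. -/
  σ : Γℚ
  /-- The generator `τ` of the second coordinate. -/
  τ : Γℚ
  /-- `σ` fixes `ζ_p`. -/
  hσ : cycChar p σ = 1
  /-- `τ` fixes `ζ_p`. -/
  hτ : cycChar p τ = 1
  /-- The first coordinate of `σ` is one. -/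
  hfσ : d.f.toFun σ = 1
  /-- The second coordinate of `σ` is zero. -/
  hψσ : psi d σ = 0
  /-- The first coordinate of `τ` is zero. -/
  hfτ : d.f.toFun τ = 0
  /-- The second coordinate of `τ` is one. -/
  hψτ : psi d τ = 1

/-- Generators exist for odd `p`. -/
lemma nonempty_basis (h2 : 2 < p) (d : Datum p) : Nonempty (Basis d) := by
  obtain ⟨σ, τ, h1, h3, h4, h5, h6, h7⟩ := exists_basis d h2
  exact ⟨⟨σ, τ, h1, h3, h4, h5, h6, h7⟩⟩

variable {d : Datum p} (b : Basis d)

/-- The first generator. -/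
def Basis.s : field d ≃ₐ[ℚ] field d := res d b.σ

/-- The second generator. -/
def Basis.t : field d ≃ₐ[ℚ] field d := res d b.τ

/-- Words in the generators fix the `p`-th roots of unity. -/
lemma Basis.cycChar_word (m n : ℕ) : cycChar p (b.σ ^ m * b.τ ^ n) = 1 := by
  rw [_root_.map_mul, _root_.map_pow, _root_.map_pow, b.hσ, b.hτ, one_pow, one_pow, one_mul]

/-- The first coordinate of a word in the generators. -/
lemma Basis.fun_word (m n : ℕ) : d.f.toFun (b.σ ^ m * b.τ ^ n) = m := by
  rw [d.f.map_mul _ _ (by rw [_root_.map_pow, b.hσ, one_pow])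
    (by rw [_root_.map_pow, b.hτ, one_pow]), d.f.map_pow b.hσ, d.f.map_pow b.hτ, b.hfσ, b.hfτ,
    mul_one, mul_zero, add_zero]

/-- The second coordinate of a word in the generators. -/
lemma Basis.psi_word (m n : ℕ) : psi d (b.σ ^ m * b.τ ^ n) = n := by
  rw [psi_mul, psi_pow, psi_pow, b.hψσ, b.hψτ, mul_zero, zero_add, mul_one]

/-- An element fixing `ζ_p` restricts to a word in the generators. -/
lemma Basis.res_eq {γ : Γℚ} (h : cycChar p γ = 1) :
    res d γ = b.s ^ (d.f.toFun γ).val * b.t ^ (psi d γ).val := by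
  have : NeZero p := ⟨hp.out.ne_zero⟩
  rw [Basis.s, Basis.t, ← _root_.map_pow, ← _root_.map_pow, ← _root_.map_mul]
  exact res_eq_of d h (b.cycChar_word _ _) (by rw [b.fun_word, ZMod.natCast_zmod_val])
    (by rw [b.psi_word, ZMod.natCast_zmod_val])

/-- The first generator has order dividing `p`. -/
lemma Basis.s_pow : b.s ^ p = 1 := by
  rw [Basis.s, ← _root_.map_pow, res_eq_one_iff]
  have h := And.intro (b.cycChar_word p 0) (And.intro (b.fun_word p 0) (b.psi_word p 0))
  rw [pow_zero, mul_one, ZMod.natCast_self, Nat.cast_zero] at h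
  exact h

/-- The second generator has order dividing `p`. -/
lemma Basis.t_pow : b.t ^ p = 1 := by
  rw [Basis.t, ← _root_.map_pow, res_eq_one_iff]
  have h := And.intro (b.cycChar_word 0 p) (And.intro (b.fun_word 0 p) (b.psi_word 0 p))
  rw [pow_zero, one_mul, ZMod.natCast_self, Nat.cast_zero] at h
  exact h

/-- The generators commute. -/
lemma Basis.commute : Commute b.s b.t := by
  change res d b.σ * res d b.τ = res d b.τ * res d b.σ
  rw [← _root_.map_mul, ← _root_.map_mul]
  refine res_eq_of d (by rw [_root_.map_mul, b.hσ, b.hτ, one_mul])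
    (by rw [_root_.map_mul, b.hσ, b.hτ, one_mul]) ?_ (by rw [psi_mul, psi_mul, add_comm])
  rw [d.f.map_mul _ _ b.hσ b.hτ, d.f.map_mul _ _ b.hτ b.hσ, add_comm]

/-- An element fixing the `p`-th roots of unity and in inertia at a place of the auxiliary field is
a zero of `f`, and of `psi` away from `q`. -/
lemma fun_eq_zero_of_mem_inertia {ℓ : ℕ} (hℓ : ℓ.Prime) {w : Pl (field d)}
    (hw : (ℓ : 𝓞 (field d)) ∈ w.asIdeal) {γ : Γℚ} (hγ : cycChar p γ = 1)
    (hg : ∀ x : 𝓞 (field d), res d γ • x - x ∈ w.asIdeal) :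
    d.f.toFun γ = 0 ∧ (ℓ ≠ d.a.q → psi d γ = 0) := by
  obtain ⟨B, hB, rfl⟩ := exists_plBelow_eq hℓ w hw
  obtain ⟨σ', hσ', hres⟩ := exists_mem_inertia_restrict hℓ hB hg
  have hN := (res_eq_res_iff d σ' γ).mp hres
  obtain ⟨h1, h3, h4⟩ := hN
  have hχ : cycChar p σ' = 1 := by
    rwa [_root_.map_mul, _root_.map_inv, hγ, inv_one, mul_one] at h1
  refine ⟨?_, fun hne => ?_⟩
  · rw [d.f.map_mul _ _ hχ (by rw [_root_.map_inv, hγ, inv_one]), d.f.map_inv hγ,
      d.f.unr ℓ hℓ B hB σ' hσ' hχ] at h3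
    linear_combination -h3
  · rw [psi_mul, psi_inv, psi_eq_zero_of_inertia d hℓ hne hB hσ'] at h4
    linear_combination -h4

/-- The auxiliary field is unramified away from `p` and `q`. -/
lemma inertia_eq_one_of_ne {ℓ : ℕ} (hℓ : ℓ.Prime) (hℓp : ℓ ≠ p) (hℓq : ℓ ≠ d.a.q) {w : Pl (field d)}
    (hw : (ℓ : 𝓞 (field d)) ∈ w.asIdeal) {g : field d ≃ₐ[ℚ] field d}
    (hg : ∀ x : 𝓞 (field d), g • x - x ∈ w.asIdeal) : g = 1 := by
  obtain ⟨B, hB, rfl⟩ := exists_plBelow_eq hℓ w hw
  obtain ⟨σ', hσ', rfl⟩ := exists_mem_inertia_restrict hℓ hB hg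
  exact (res_eq_one_iff d σ').mpr ⟨cycChar_eq_one_of_mem_inertia hℓ hℓp hB hσ',
    d.f.unr' hℓ hℓp hB hσ', psi_eq_zero_of_inertia d hℓ hℓq hB hσ'⟩

/-- Away from `q` the ramification index in the auxiliary field is less than `p`. -/
lemma card_inertia_lt {ℓ : ℕ} (hℓ : ℓ.Prime) (hℓq : ℓ ≠ d.a.q) {w : Pl (field d)}
    (hw : (ℓ : 𝓞 (field d)) ∈ w.asIdeal) :
    plRamIdx ℚ w < p := by
  classical
  rw [plRamIdx_rat_eq_card]
  have : NeZero p := ⟨hp.out.ne_zero⟩
  let φ : w.asIdeal.inertia (field d ≃ₐ[ℚ] field d) → (ZMod p)ˣ :=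
    fun g => cycChar p (res_surjective d g.1).choose
  have hφ : Function.Injective φ := by
    intro g g' h
    set γ := (res_surjective d g.1).choose
    set γ' := (res_surjective d g'.1).choose
    have h' : res d (γ'⁻¹ * γ) = g'.1⁻¹ * g.1 := by
      rw [_root_.map_mul, _root_.map_inv, (res_surjective d g.1).choose_spec,
        (res_surjective d g'.1).choose_spec]
    have hχ : cycChar p (γ'⁻¹ * γ) = 1 := by
      rw [_root_.map_mul, _root_.map_inv, inv_mul_eq_one]; exact h.symm
    have hin : ∀ x : 𝓞 (field d), res d (γ'⁻¹ * γ) • x - x ∈ w.asIdeal := by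
      rw [h']; exact mul_mem (inv_mem g'.2) g.2
    obtain ⟨h3, h4⟩ := fun_eq_zero_of_mem_inertia hℓ hw hχ hin
    have h5 : res d (γ'⁻¹ * γ) = 1 := (res_eq_one_iff d _).mpr ⟨hχ, h3, h4 hℓq⟩
    rw [h', inv_mul_eq_one] at h5
    exact Subtype.ext h5.symm
  have h := Nat.card_le_card_of_injective φ hφ
  rw [Nat.card_eq_fintype_card (α := (ZMod p)ˣ), ZMod.card_units] at h
  have := hp.out.one_lt
  omega

/-! ### At the auxiliary prime -/

variable (d) in
/-- The chosen root of unity of order `q`. -/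
def xi : ℚbar := (exists_primitiveRoot_qbar (q := d.a.q)).choose

/-- The chosen root of unity of order `q` is primitive. -/
lemma xi_spec : IsPrimitiveRoot (xi d) d.a.q := (exists_primitiveRoot_qbar (q := d.a.q)).choose_spec

variable (d) in
open Classical in
/-- The units of a given logarithm. -/
def logClass (i : ZMod p) : Finset (ZMod d.a.q)ˣ := Finset.univ.filter fun x =>
  d.D.log (x : ZMod d.a.q) = i

variable (d) in
/-- The partial product of `1 - ξ^x`. -/
def gaussPeriod (i : ZMod p) : ℚbar := ∏ x ∈ logClass d i, (1 - xi d ^ (x : ZMod d.a.q).val)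

/-- The Galois action on the factors of the Gauss periods. -/
lemma apply_one_sub_xi (γ : Γℚ) (x : (ZMod d.a.q)ˣ) :
    γ (1 - xi d ^ (x : ZMod d.a.q).val) =
      1 - xi d ^ ((cycChar d.a.q γ * x : (ZMod d.a.q)ˣ) : ZMod d.a.q).val := by
  rw [map_sub, _root_.map_one, _root_.map_pow, apply_eq_pow_cycChar γ xi_spec.pow_eq_one, ← pow_mul,
    Units.val_mul, ZMod.val_mul, ← pow_mod_orderOf (xi d) (_ * _), ← xi_spec.eq_orderOf]

/-- The Galois group permutes the Gauss periods through the tame character. -/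
lemma apply_gaussPeriod (γ : Γℚ) (i : ZMod p) :
    γ (gaussPeriod d i) = gaussPeriod d (i + psi d γ) := by
  classical
  rw [gaussPeriod, gaussPeriod, map_prod]
  refine Finset.prod_bij' (fun x _ => cycChar d.a.q γ * x) (fun x _ => (cycChar d.a.q γ)⁻¹ * x)
    (fun x hx => ?_) (fun x hx => ?_) (fun x _ => inv_mul_cancel_left _ _)
    (fun x _ => mul_inv_cancel_left _ _) (fun x _ => apply_one_sub_xi γ x)
  · simp only [logClass, Finset.mem_filter, Finset.mem_univ, true_and] at hx ⊢
    rw [Units.val_mul, d.D.log_mul _ _ (Units.ne_zero _) (Units.ne_zero _), hx, psi, add_comm]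
  · simp only [logClass, Finset.mem_filter, Finset.mem_univ, true_and] at hx ⊢
    have h := psi_inv d γ
    rw [psi, _root_.map_inv] at h
    rw [Units.val_mul, d.D.log_mul _ _ (Units.ne_zero _) (Units.ne_zero _), hx, h]
    ring

/-- The Gauss period lies in the auxiliary field. -/
lemma gaussPeriod_mem : gaussPeriod d 0 ∈ field d := by
  rw [field, IntermediateField.mem_fixedField_iff]
  intro γ hγ
  rw [apply_gaussPeriod, hγ.2.2, add_zero]

/-- The product of the Gauss periods is `q`. -/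
lemma prod_gaussPeriod : ∏ i : ZMod p, gaussPeriod d i = (d.a.q : ℚbar) := by
  classical
  simp only [gaussPeriod, logClass]
  rw [Finset.prod_fiberwise Finset.univ (fun x : (ZMod d.a.q)ˣ => d.D.log (x : ZMod d.a.q))]
  have h2 := Polynomial.eval_one_cyclotomic_prime (R := ℚbar) (p := d.a.q)
  rw [Polynomial.cyclotomic_eq_prod_X_sub_primitiveRoots xi_spec, Polynomial.eval_prod] at h2
  rw [← h2]
  refine Finset.prod_bij (fun x _ => xi d ^ (x : ZMod d.a.q).val) (fun x _ => ?_)
    (fun x _ y _ h => ?_) (fun μ hμ => ?_) (fun x _ => by simp)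
  · rw [mem_primitiveRoots d.a.hq.pos]
    exact xi_spec.pow_of_coprime _ (ZMod.val_coe_unit_coprime x)
  · exact Units.ext (ZMod.val_injective _ (xi_spec.pow_inj (ZMod.val_lt _) (ZMod.val_lt _) h))
  · rw [mem_primitiveRoots d.a.hq.pos] at hμ
    obtain ⟨i, hi, hi'⟩ := xi_spec.eq_pow_of_pow_eq_one hμ.pow_eq_one
    have hcop : i.Coprime d.a.q := by
      rw [← xi_spec.pow_iff_coprime d.a.hq.pos, hi']; exact hμ
    refine ⟨ZMod.unitOfCoprime i hcop, Finset.mem_univ _, ?_⟩
    rw [ZMod.coe_unitOfCoprime, ZMod.val_natCast, Nat.mod_eq_of_lt hi, hi']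

/-- A conjugate of the Gauss period is an integral multiple of it. -/
lemma exists_integral_apply_gaussPeriod (γ : Γℚ) :
    ∃ W : ℚbar, IsIntegral ℤ W ∧ γ (gaussPeriod d 0) = gaussPeriod d 0 * W := by
  classical
  refine ⟨∏ x ∈ logClass d 0,
    ∑ k ∈ Finset.range ((cycChar d.a.q γ : (ZMod d.a.q)ˣ) : ZMod d.a.q).val,
    (xi d ^ (x : ZMod d.a.q).val) ^ k, IsIntegral.prod _ fun x _ => IsIntegral.sum _ fun k _ =>
      ((xi_spec.isIntegral d.a.hq.pos).pow _).pow _, ?_⟩
  rw [gaussPeriod, map_prod, ← Finset.prod_mul_distrib]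
  refine Finset.prod_congr rfl fun x _ => ?_
  rw [mul_neg_geom_sum, map_sub, _root_.map_one, _root_.map_pow,
    apply_eq_pow_cycChar γ xi_spec.pow_eq_one, ← pow_mul, ← pow_mul, mul_comm]

/-- The Gauss period is nonzero. -/
lemma gaussPeriod_zero_ne_zero : gaussPeriod d 0 ≠ 0 := by
  intro h'
  have := prod_gaussPeriod (d := d)
  rw [Finset.prod_eq_zero (Finset.mem_univ 0) h', eq_comm, Nat.cast_eq_zero] at this
  exact d.a.hq.ne_zero this

variable (d) in
/-- The element of the auxiliary field dividing `q`. -/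
def piq : field d := ⟨gaussPeriod d 0, gaussPeriod_mem⟩

/-- The norm of `piq` along the generator is `q`. -/
lemma orbitProd_piq : orbitProd b.t (piq d) p = (d.a.q : field d) := by
  have : NeZero p := ⟨hp.out.ne_zero⟩
  refine Subtype.ext ?_
  change (field d).val (orbitProd b.t (piq d) p) = (field d).val (d.a.q : field d)
  rw [orbitProd, map_prod, map_natCast, ← prod_gaussPeriod]
  refine Finset.prod_bij (fun i _ => (i : ZMod p)) (fun _ _ => Finset.mem_univ _)
    (fun i hi j hj h => ?_) (fun j _ => ⟨j.val, Finset.mem_range.mpr (ZMod.val_lt j),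
      ZMod.natCast_zmod_val j⟩) (fun i _ => ?_)
  · rw [ZMod.natCast_eq_natCast_iff', Nat.mod_eq_of_lt (Finset.mem_range.mp hi),
      Nat.mod_eq_of_lt (Finset.mem_range.mp hj)] at h
    exact h
  · rw [Basis.t, ← _root_.map_pow]
    change ((res d (b.τ ^ i) (piq d) : field d) : ℚbar) = _
    rw [res_apply_coe]
    change (b.τ ^ i) (gaussPeriod d 0) = _
    rw [apply_gaussPeriod, psi_pow, b.hψτ, mul_one, zero_add]

/-- The element dividing `q` is nonzero. -/
lemma piq_ne_zero : piq d ≠ 0 := by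
  exact fun h => gaussPeriod_zero_ne_zero (congrArg Subtype.val h)

/-- The conjugates of `piq` have the same orders. -/
lemma ord_apply_piq (γ : Γℚ) (w : Pl (field d)) : ord w (res d γ (piq d)) = ord w (piq d) := by
  have key : ∀ γ : Γℚ, ord w (piq d) ≤ ord w (res d γ (piq d)) := fun γ => by
    obtain ⟨W, hW, hW'⟩ := exists_integral_apply_gaussPeriod (d := d) γ
    set V := res d γ (piq d) / piq d with hV
    have hVW : (V : ℚbar) = W := by
      rw [hV]
      change ((res d γ (piq d) : field d) : ℚbar) / gaussPeriod d 0 = W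
      rw [res_apply_coe]
      change γ (gaussPeriod d 0) / gaussPeriod d 0 = W
      rw [hW', mul_div_cancel_left₀ _ gaussPeriod_zero_ne_zero]
    have hint : IsIntegral ℤ V :=
      (isIntegral_algebraMap_iff (algebraMap (field d) ℚbar).injective).mp (by
        change IsIntegral ℤ (V : ℚbar); rw [hVW]; exact hW)
    have h0 := ord_nonneg_of_isIntegral w hint
    rw [hV, ord_div w ((_root_.map_ne_zero _).mpr piq_ne_zero) piq_ne_zero] at h0
    linarith
  refine le_antisymm ?_ (key γ)
  -- the reverse inequality from the inverse, transported by `res γ`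
  obtain ⟨W, hW, hW'⟩ := exists_integral_apply_gaussPeriod (d := d) γ⁻¹
  have h1 : gaussPeriod d 0 = γ (gaussPeriod d 0) * γ W := by
    rw [← _root_.map_mul, ← hW', ← AlgEquiv.mul_apply, mul_inv_cancel, AlgEquiv.one_apply]
  set V := piq d / res d γ (piq d) with hV
  have hne : res d γ (piq d) ≠ 0 := (_root_.map_ne_zero _).mpr piq_ne_zero
  have hVW : (V : ℚbar) = γ W := by
    rw [hV]
    change gaussPeriod d 0 / ((res d γ (piq d) : field d) : ℚbar) = γ W
    rw [res_apply_coe]
    change gaussPeriod d 0 / γ (gaussPeriod d 0) = γ W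
    rw [div_eq_iff ((_root_.map_ne_zero γ).mpr gaussPeriod_zero_ne_zero), mul_comm]
    exact h1
  have hint : IsIntegral ℤ V :=
    (isIntegral_algebraMap_iff (algebraMap (field d) ℚbar).injective).mp (by
      change IsIntegral ℤ (V : ℚbar); rw [hVW]; exact hW.map (γ.restrictScalars ℤ))
  have h0 := ord_nonneg_of_isIntegral w hint
  rw [hV, ord_div w piq_ne_zero hne] at h0
  linarith

/-- Over `q` the auxiliary field is totally ramified of degree `p`, with uniformiser `piq`. -/
lemma ram_q {w : Pl (field d)} (hw : (d.a.q : 𝓞 (field d)) ∈ w.asIdeal) :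
    plRamIdx ℚ w = p ∧ ord w (piq d) = 1 ∧ (∀ x : 𝓞 (field d), b.t • x - x ∈ w.asIdeal) := by
  set I := w.asIdeal.inertia (field d ≃ₐ[ℚ] field d)
  have hle : I ≤ Subgroup.zpowers b.t := by
    intro g hg
    obtain ⟨B, hB, hBw⟩ := exists_plBelow_eq d.a.hq w hw
    subst hBw
    obtain ⟨σ', hσ', rfl⟩ := exists_mem_inertia_restrict d.a.hq hB hg
    have hχ := cycChar_eq_one_of_mem_inertia d.a.hq d.a.hqp hB hσ'
    change res d σ' ∈ _
    rw [b.res_eq hχ, d.f.unr' d.a.hq d.a.hqp hB hσ', ZMod.val_zero, pow_zero, one_mul]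
    exact Subgroup.npow_mem_zpowers _ _
  have hcard : Nat.card I ∣ p := by
    refine (Subgroup.card_dvd_of_le hle).trans ?_
    rw [Nat.card_zpowers]
    exact orderOf_dvd_of_pow_eq_one b.t_pow
  -- `q` is the norm of `piq`, so `p` divides the order of the inertia group
  have hord := congrArg (ord w) (orbitProd_piq b)
  have hs : ∀ i ∈ Finset.range p, ord w ((b.t ^ i) (piq d)) = ord w (piq d) := fun i _ => by
    rw [Basis.t, ← _root_.map_pow]; exact ord_apply_piq _ w
  rw [orbitProd, ord_prod w _ _ fun i _ => (_root_.map_ne_zero _).mpr piq_ne_zero,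
    Finset.sum_congr rfl hs,
    Finset.sum_const, Finset.card_range, nsmul_eq_mul, ord_natCast_prime_of_mem d.a.hq w hw,
    plRamIdx_rat_eq_card] at hord
  have hI : Nat.card I = p := by
    rcases (Nat.dvd_prime hp.out).mp hcard with h | h
    · exfalso
      rw [h, Nat.cast_one] at hord
      have h3 : (p : ℤ) ∣ 1 := ⟨_, hord.symm⟩
      rw [Int.natCast_dvd] at h3
      exact hp.out.ne_one (Nat.eq_one_of_dvd_one h3)
    · exact h
  refine ⟨by rw [plRamIdx_rat_eq_card]; exact hI, ?_, ?_⟩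
  · rw [hI] at hord
    exact mul_left_cancel₀ (Int.natCast_ne_zero.mpr hp.out.ne_zero) (hord.trans (mul_one _).symm)
  · have hz : Nat.card (Subgroup.zpowers b.t) ≤ p := by
      rw [Nat.card_zpowers]
      exact Nat.le_of_dvd hp.out.pos (orderOf_dvd_of_pow_eq_one b.t_pow)
    exact (Subgroup.eq_of_le_of_card_ge hle (by rw [hI]; exact hz)).ge (Subgroup.mem_zpowers b.t)

include b in
/-- Residues at `q` are rational integers. -/
lemma exists_int_sub_mem {w : Pl (field d)} (hw : (d.a.q : 𝓞 (field d)) ∈ w.asIdeal)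
    (x : 𝓞 (field d)) : ∃ n : ℤ, x - n ∈ w.asIdeal := by
  classical
  obtain ⟨B, hB, hBw⟩ := exists_plBelow_eq d.a.hq w hw
  obtain ⟨φ, hφ⟩ := exists_isFrobeniusAt d.a.hq hB
  have hχ : cycChar p φ = 1 := Units.ext (by
    rw [cycChar_frobenius d.a.hq d.a.hqp hB hφ, d.a.hq_one, Units.val_one])
  have hfr : ∀ y : 𝓞 (field d), y ^ d.a.q - y ∈ w.asIdeal := by
    intro y
    have h1 : res d φ • y - y ^ d.a.q ∈ w.asIdeal := by
      rw [← hBw]; exact isFrobeniusMod_restrict (field d) d.a.hq hB hφ y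
    have h2' : res d φ • y - y ∈ w.asIdeal := by
      rw [b.res_eq hχ, d.a.hsplit B hB φ hφ, ZMod.val_zero, pow_zero, one_mul]
      exact (pow_mem
        (show b.t ∈ w.asIdeal.inertia (field d ≃ₐ[ℚ] field d) from (ram_q b hw).2.2) _ :) y
    have := sub_mem h2' h1
    rwa [sub_sub_sub_cancel_left] at this
  set mk := Ideal.Quotient.mk w.asIdeal
  have := w.isPrime
  have hchar : CharP (𝓞 (field d) ⧸ w.asIdeal) d.a.q :=
    (CharP.charP_iff_prime_eq_zero d.a.hq).mpr (by
    rw [← map_natCast mk, Ideal.Quotient.eq_zero_iff_mem]; exact hw)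
  obtain ⟨c, hc⟩ := exists_natCast_eq_of_pow_eq (R := 𝓞 (field d) ⧸ w.asIdeal) d.a.q
    (show mk x ^ d.a.q = mk x by rw [← _root_.map_pow, Ideal.Quotient.eq]; exact hfr x)
  exact ⟨(c : ℤ), Ideal.Quotient.eq.mp (by rw [Int.cast_natCast, map_natCast, hc])⟩

/-- The product `z` is a unit times a `p`-th power of a rational at `q`, up to powers of `q`. -/
theorem exists_rat_closeOne {u : field d} (hu : u ≠ 0) {w : Pl (field d)}
    (hw : (d.a.q : 𝓞 (field d)) ∈ w.asIdeal) :
    ∃ (k : ℤ) (T : ℚ), T ≠ 0 ∧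
      CloseOne w 1 (orbitProd b.t u p / (d.a.q : field d) ^ k / (T : field d) ^ p) := by
  obtain ⟨-, hπ, hI⟩ := ram_q b hw
  set k := ord w u
  set π := piq d
  have hπ0 : π ≠ 0 := piq_ne_zero
  set u' := u / π ^ k with hu'
  have hu'0 : u' ≠ 0 := div_ne_zero hu (zpow_ne_zero _ hπ0)
  have hu'ord : ord w u' = 0 := by
    rw [hu', ord_div w hu (zpow_ne_zero _ hπ0), ord_zpow, hπ, mul_one, sub_self]
  -- `u = π^k u'` and the unit `u'` is congruent to a rational `T`
  obtain ⟨x, y, hx, hy, hxy⟩ := exists_localUnit_eq_div w ⟨Units.mk0 u' hu'0, hu'ord⟩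
  change u' * y = x at hxy
  obtain ⟨nx, hnx⟩ := exists_int_sub_mem b hw x
  obtain ⟨ny, hny⟩ := exists_int_sub_mem b hw y
  have hnx' : (nx : 𝓞 (field d)) ∉ w.asIdeal := fun h => hx (by simpa using add_mem hnx h)
  have hny' : (ny : 𝓞 (field d)) ∉ w.asIdeal := fun h => hy (by simpa using add_mem hny h)
  have hnd : ∀ n : ℤ, (n : 𝓞 (field d)) ∉ w.asIdeal → ¬ (d.a.q : ℤ) ∣ n := by
    rintro n hn ⟨c, rfl⟩
    refine hn ?_
    rw [Int.cast_mul, Int.cast_natCast]
    exact Ideal.mul_mem_right _ _ hw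
  have hne : ∀ n : ℤ, (n : 𝓞 (field d)) ∉ w.asIdeal → n ≠ 0 := fun n hn h =>
    hnd n hn (h ▸ dvd_zero _)
  have hnxF : (nx : field d) ≠ 0 := Int.cast_ne_zero.mpr (hne nx hnx')
  have hnyF : (ny : field d) ≠ 0 := Int.cast_ne_zero.mpr (hne ny hny')
  have hy0 : y ≠ 0 := fun h => hy (h ▸ zero_mem _)
  have hyF : (y : field d) ≠ 0 := fun h => hy0 (RingOfIntegers.ext h)
  refine ⟨k, (nx : ℚ) / ny, div_ne_zero (Int.cast_ne_zero.mpr (hne nx hnx'))
    (Int.cast_ne_zero.mpr (hne ny hny')), ?_⟩
  have hTF : (((nx : ℚ) / ny : ℚ) : field d) = (nx : field d) / ny := by push_cast; rfl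
  rw [hTF]
  set T : field d := (nx : field d) / ny with hT
  have hT0 : T ≠ 0 := div_ne_zero hnxF hnyF
  have hclose : CloseOne w 1 (u' / T) := by
    rcases eq_or_ne (x * ny - y * nx) 0 with h | h
    · left
      have h' := congrArg (fun r : 𝓞 (field d) => (r : field d)) h
      simp only [map_sub, _root_.map_mul, map_intCast,
        _root_.map_zero] at h'
      rw [hT, div_eq_one_iff_eq (div_ne_zero hnxF hnyF), eq_div_iff hnyF]
      apply mul_right_cancel₀ hyF
      linear_combination h' + (ny : field d) * hxy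
    · right
      have hmem : x * ny - y * nx ∈ w.asIdeal := by
        rw [show x * ny - y * nx = (x - nx) * ny - (y - ny) * nx by ring]
        exact sub_mem (Ideal.mul_mem_right _ _ hnx) (Ideal.mul_mem_right _ _ hny)
      have h1 := (ord_algebraMap_pos_iff w h).mpr hmem
      have hy1 : ord w (y : field d) = 0 := (ord_algebraMap_eq_zero_iff w hy0).mpr hy
      have e1 : u' / T - 1 = ((x * ny - y * nx : 𝓞 (field d)) : field d) / (y * nx) := by
        simp only [RingOfIntegers.coe_eq_algebraMap, map_sub, _root_.map_mul, map_intCast]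
        simp only [← RingOfIntegers.coe_eq_algebraMap]
        rw [hT, ← hxy]
        field_simp
      rw [e1, ord_div w (fun h' => h (RingOfIntegers.ext (h'.trans (_root_.map_zero _).symm)))
        (mul_ne_zero hyF hnxF), ord_mul w hyF hnxF, hy1,
        ord_intCast_eq_zero d.a.hq w hw (hnd nx hnx')]
      omega
  -- the orbit product is `q^k T^p` times conjugate ratios and `(u' / T)^p`
  have e : orbitProd b.t u p / (d.a.q : field d) ^ k / T ^ p =
      (∏ i ∈ Finset.range p, (b.t ^ i) u' / u') * (u' / T) ^ p := by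
    rw [Finset.prod_div_distrib, Finset.prod_const, Finset.card_range, div_pow u' T,
      div_mul_div_cancel₀ (pow_ne_zero _ hu'0)]
    congr 1
    rw [← orbitProd_piq b, orbitProd, orbitProd, ← Finset.prod_zpow, ← Finset.prod_div_distrib]
    exact Finset.prod_congr rfl fun i _ => by rw [hu', map_div₀, map_zpow₀]
  rw [e]
  refine (CloseOne.prod one_pos _ _ (fun i _ => div_ne_zero ((_root_.map_ne_zero _).mpr hu'0) hu'0)
    fun i _ => apply_div_closeOne (fun z => ?_) hu'0 hu'ord).mul one_pos ?_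
    (pow_ne_zero _ (div_ne_zero hu'0 hT0))
  · exact (pow_mem (show b.t ∈ w.asIdeal.inertia (field d ≃ₐ[ℚ] field d) from hI) i :) z
  · have := CloseOne.prod one_pos (Finset.range p) (fun _ => u' / T)
      (fun _ _ => div_ne_zero hu'0 hT0) fun _ _ => hclose
    rwa [Finset.prod_const, Finset.card_range] at this

end HKummer

end Fermat.CFT
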