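import Fermat.Agent.CFT.Herbrand.Jacobi
import Fermat.Agent.CFT.Herbrand.Local
import Fermat.Agent.CFT.Kummer.Hasse

/-!
# The Jacobi sum is a norm in the auxiliary extension

`exists_cochain`, by the norm theorem for unramified extensions (`CFT/Kummer/Hasse`); `Vanishing`
takes the product of conjugates of the resulting element.
-/

set_option autoImplicit false

noncomputable section

open NumberField IsDedekindDomain HeightOneSpectrum
open scoped Pointwise

namespace Fermat.CFT

local notation "ℚbar" => AlgebraicClosure ℚ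
local notation "Γℚ" => AlgebraicClosure ℚ ≃ₐ[ℚ] AlgebraicClosure ℚ

namespace HKummer

variable {p : ℕ} [hp : Fact p.Prime] {d : Datum p}

variable (d) in
/-- The distinguished prime over `ℓ`. -/
def w₀ : Pl (field d) := plBelow (field d) d.a.hℓ d.a.hA₀

/-- The distinguished prime lies over `ℓ`. -/
lemma ell_mem_w₀ : (d.a.ℓ : 𝓞 (field d)) ∈ (w₀ d).asIdeal := natCast_mem_plBelow _ _ _

/-- The distinguished prime is unramified. -/
lemma ram_w₀ : plRamIdx ℚ (w₀ d) = 1 :=
  plRamIdx_eq_one_of_inertia _ fun _ hg => inertia_eq_one_of_ne d.a.hℓ d.a.hℓp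
    (ell_ne_q d) ell_mem_w₀ hg

/-- The prescribed valuations of the Jacobi sum. -/
def jacobiVal (c : (ZMod p)ˣ) : ℤ := if 2 * (c : ZMod p).val < p then 1 else 0

/-- Some element fixed by the kernel of the cyclotomic character has orders over `ℓ` given by
`jacobiVal` and no others. -/
lemma exists_jacobi (h2 : 2 < p) :
    ∃ J : field d, J ≠ 0 ∧ (∀ γ, cycChar p γ = 1 → res d γ J = J) ∧
      (∀ w : Pl (field d), ord w (d.a.ℓ : field d) = 0 → ord w J = 0) ∧
      ∀ γ, ord (w₀ d) (res d γ J) = jacobiVal (cycChar p γ) := by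
  have : NeZero p := ⟨hp.out.ne_zero⟩
  obtain ⟨z, hz⟩ := exists_primitiveRoot_qbar (q := p)
  have hzF : z ∈ field d := by
    rw [field, IntermediateField.mem_fixedField_iff]
    exact fun γ hγ => (cycChar_eq_one_iff hz).mp hγ.1
  let zF : field d := ⟨z, hzF⟩
  have hzF' : IsPrimitiveRoot zF p :=
    IsPrimitiveRoot.of_map_of_injective (f := algebraMap (field d) ℚbar) hz
      (algebraMap (field d) ℚbar).injective
  -- the cyclotomic subfield
  let K : IntermediateField ℚ (field d) := IntermediateField.adjoin ℚ {zF}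
  have : IsCyclotomicExtension {p} ℚ K :=
    hzF'.intermediateField_adjoin_isCyclotomicExtension ℚ
  have : IsGalois ℚ K := IsCyclotomicExtension.isGalois {p} ℚ K
  let ζ : K := ⟨zF, IntermediateField.mem_adjoin_simple_self ℚ zF⟩
  have hζ : IsPrimitiveRoot ζ p :=
    IsPrimitiveRoot.of_map_of_injective (f := algebraMap K (field d)) hzF'
      (algebraMap K (field d)).injective
  have hext : ∀ g : K ≃ₐ[ℚ] K, g ζ = ζ → g = 1 := by
    intro g hg
    set g' := g.liftNormal (field d)
    have hg' : g' zF = zF := (g.liftNormal_commutes (field d) ζ).trans (congrArg _ hg)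
    have hle : K ≤ IntermediateField.fixedField (Subgroup.zpowers g') := by
      refine IntermediateField.adjoin_simple_le_iff.mpr
        ((IntermediateField.mem_fixedField_iff _ _).mpr fun h hh => ?_)
      exact (Subgroup.zpowers_le.mpr
        (show g' ∈ MulAction.stabilizer (field d ≃ₐ[ℚ] field d) zF from hg') hh :)
    ext x
    have h1 := (IntermediateField.mem_fixedField_iff _ _).mp (hle x.2) g' (Subgroup.mem_zpowers _)
    have h3 : algebraMap K (field d) (g x) = algebraMap K (field d) x :=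
      (g.liftNormal_commutes (field d) x).symm.trans h1
    rw [(algebraMap K (field d)).injective h3]
    rfl
  have : Fact d.a.ℓ.Prime := ⟨d.a.hℓ⟩
  have hdvd : p ∣ d.a.ℓ - 1 := by
    rw [← ZMod.natCast_eq_zero_iff, Nat.cast_sub d.a.hℓ.one_lt.le, d.a.hℓ_one, Nat.cast_one,
      sub_self]
  set v := plUnder K (w₀ d)
  have hlv : (d.a.ℓ : 𝓞 K) ∈ v.asIdeal := by
    rw [asIdeal_plUnder, Ideal.mem_comap, map_natCast]; exact ell_mem_w₀
  -- its Jacobi element, read back in `field d`
  obtain ⟨J, hJ0, hJ1, hJ2⟩ := exists_jacobi_element h2 hζ hext (ℓ := d.a.ℓ) hdvd v hlv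
  have hres : ∀ (γ : Γℚ) (x : K), res d γ (algebraMap K (field d) x) =
      algebraMap K (field d) ((res d γ).restrictNormal K x) :=
    fun γ x => ((res d γ).restrictNormal_commutes K x).symm
  have hgζ : ∀ γ : Γℚ, (res d γ).restrictNormal K ζ =
      ζ ^ ((cycChar p γ : (ZMod p)ˣ) : ZMod p).val := by
    intro γ
    apply (algebraMap K (field d)).injective
    rw [← hres, _root_.map_pow]
    refine Subtype.ext ?_
    rw [res_apply_coe]
    exact apply_eq_pow_cycChar γ hz.pow_eq_one
  refine ⟨algebraMap K (field d) J, (_root_.map_ne_zero _).mpr hJ0, fun γ hγ => ?_, fun w hw => ?_,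
    fun γ => ?_⟩
  · rw [hres, hext ((res d γ).restrictNormal K)
      (by rw [hgζ, hγ, Units.val_one, ZMod.val_one, pow_one])]
    rfl
  · rw [ord_algebraMap_eq_zero_iff']
    refine hJ1 _ ?_
    rw [← ord_algebraMap_eq_zero_iff' (F := field d) w, map_natCast]
    exact hw
  · have hv : ord v (d.a.ℓ : K) = 1 ∧ plRamIdx K (w₀ d) = 1 := by
      have h := ord_natCast_prime_of_mem d.a.hℓ (w₀ d) ell_mem_w₀
      rw [ram_w₀, ← map_natCast (algebraMap K (field d)), ord_algebraMap_eq, Nat.cast_one] at h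
      have h' := ord_natCast_eq_one_of_absNorm hζ hext d.a.hℓ d.a.hℓp v hlv
      refine ⟨h', ?_⟩
      rw [h', mul_one] at h
      exact_mod_cast h
    rw [hres, ord_algebraMap_eq, hv.2, Nat.cast_one, one_mul]
    set c := ((cycChar p γ : (ZMod p)ˣ) : ZMod p)
    exact hJ2 _ c.val (hgζ γ) (Nat.pos_of_ne_zero fun h =>
      (cycChar p γ).ne_zero ((ZMod.val_eq_zero _).mp h)) (ZMod.val_lt c)

variable (b : Basis d)

/-- The first generator has order `p`. -/
lemma Basis.orderOf_s : orderOf b.s = p :=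
  orderOf_eq_prime b.s_pow fun h => by
    have h' := ((res_eq_one_iff d b.σ).mp h).2.1
    rw [b.hfσ] at h'
    exact one_ne_zero h'

/-- The field fixed by `b.s`. -/
private abbrev sField : IntermediateField ℚ (field d) :=
  IntermediateField.fixedField (Subgroup.zpowers b.s)

/-- `b.s` over its fixed field. -/
private def sAut : field d ≃ₐ[sField b] field d :=
  { b.s with commutes' := fun x => x.2 ⟨b.s, Subgroup.mem_zpowers _⟩ }

/-- The fixed field has a primitive `p`-th root of unity. -/
private lemma exists_zeta_sField : ∃ ζ : sField b, IsPrimitiveRoot ζ p := by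
  have : NeZero p := ⟨hp.out.ne_zero⟩
  obtain ⟨z, hz⟩ := exists_primitiveRoot_qbar (q := p)
  have hzF : z ∈ field d := by
    rw [field, IntermediateField.mem_fixedField_iff]
    exact fun γ hγ => (cycChar_eq_one_iff hz).mp hγ.1
  have hzM : (⟨z, hzF⟩ : field d) ∈ sField b := by
    rw [IntermediateField.mem_fixedField_iff]
    intro g hg
    refine (Subgroup.zpowers_le.mpr
      (show b.s ∈ MulAction.stabilizer _ (⟨z, hzF⟩ : field d) from ?_) hg :)
    exact Subtype.ext ((res_apply_coe d b.σ _).trans ((cycChar_eq_one_iff hz).mp b.hσ))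
  have hζ : IsPrimitiveRoot (⟨⟨z, hzF⟩, hzM⟩ : sField b) p :=
    IsPrimitiveRoot.of_map_of_injective (f := algebraMap (sField b) (field d))
      (IsPrimitiveRoot.of_map_of_injective (f := algebraMap (field d) ℚbar) hz
        (algebraMap (field d) ℚbar).injective) (algebraMap (sField b) (field d)).injective
  exact ⟨_, hζ⟩

/-- The auxiliary extension over the fixed field is unramified. -/
private lemma plRamIdx_sField (w : Pl (field d)) : plRamIdx (sField b) w = 1 := by
  set M : IntermediateField ℚ (field d) := IntermediateField.fixedField (Subgroup.zpowers b.s)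
  refine plRamIdx_eq_one_of_inertia w fun γM hγM => ?_
  have hmem : γM.restrictScalars ℚ ∈ M.fixingSubgroup :=
    (IntermediateField.mem_fixingSubgroup_iff M _).mpr fun x hx => γM.commutes ⟨x, hx⟩
  rw [IntermediateField.fixingSubgroup_fixedField] at hmem
  obtain ⟨i, hi⟩ := mem_powers_iff_mem_zpowers.mpr hmem
  change b.s ^ i = _ at hi
  obtain ⟨ℓ', hℓ', hℓ'w⟩ : ∃ ℓ' : ℕ, ℓ'.Prime ∧ (ℓ' : 𝓞 (field d)) ∈ w.asIdeal :=
    exists_prime_natCast_mem w
  have hfun := (fun_eq_zero_of_mem_inertia (γ := b.σ ^ i) hℓ' hℓ'w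
    (by rw [_root_.map_pow, b.hσ, one_pow]) (fun x => by
      rw [_root_.map_pow]; change b.s ^ i • x - x ∈ _; rw [hi]; exact hγM x)).1
  rw [d.f.map_pow b.hσ, b.hfσ, mul_one, ZMod.natCast_eq_zero_iff] at hfun
  obtain ⟨k, rfl⟩ := hfun
  rw [pow_mul, b.s_pow, one_pow] at hi
  exact AlgEquiv.ext fun x => DFunLike.congr_fun hi.symm x

/-- At the places not split there the valuation of `J` is divisible by `p`. -/
private lemma dvd_ord_of_isNonsplit {J : field d} (hJM : J ∈ sField b)
    (hJsupp : ∀ w : Pl (field d), ord w (d.a.ℓ : field d) = 0 → ord w J = 0)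
    {v : Pl (sField b)} (hv : IsNonsplit (sAut b) v) :
    (p : ℤ) ∣ ord v (⟨J, hJM⟩ : sField b) := by
  classical
  have : NeZero p := ⟨hp.out.ne_zero⟩
  obtain ⟨w, hw⟩ := exists_plUnder_eq (F := field d) v
  -- `s` fixes a prime over such a place; over `ℓ` it would be a power of Frobenius
  have hsw : b.s • w = w := by
    have h1 := congrArg HeightOneSpectrum.asIdeal (hv w hw)
    rw [smul_asIdeal] at h1
    refine HeightOneSpectrum.ext ?_
    rw [smul_asIdeal]
    exact h1
  rcases eq_or_ne (ord w (d.a.ℓ : field d)) 0 with h0 | h0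
  · refine ⟨0, ?_⟩
    rw [mul_zero, ← hw, ← ord_algebraMap_eq_zero_iff' (F := field d) w]
    exact hJsupp w h0
  exfalso
  have hℓw : (d.a.ℓ : 𝓞 (field d)) ∈ w.asIdeal := by
    by_contra hn
    apply h0
    rw [← map_natCast (algebraMap (𝓞 (field d)) (field d))]
    exact (ord_algebraMap_eq_zero_iff w (Nat.cast_ne_zero.mpr d.a.hℓ.ne_zero)).mpr hn
  obtain ⟨B, hB, hBw⟩ := exists_plBelow_eq d.a.hℓ w hℓw
  obtain ⟨γ, rfl⟩ := exists_smul_place d.a.hℓ d.a.hA₀ hB
  have hφ := isFrobeniusAt_conj d.a.hℓ d.a.hA₀ d.a.hφ₀ γ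
  set φ := γ * d.a.φ₀ * γ⁻¹
  have hφχ : cycChar p φ = 1 := by
    rw [_root_.map_mul, _root_.map_mul, _root_.map_inv, cycChar_phi0, mul_one, mul_inv_cancel]
  have hfr : IsFrobeniusMod (res d φ) w.asIdeal d.a.ℓ := by
    rw [← hBw]; exact isFrobeniusMod_restrict (field d) d.a.hℓ hB hφ
  have hsQ : b.s • w.asIdeal = w.asIdeal := by
    rw [← smul_asIdeal, hsw]
  obtain ⟨k, hk⟩ := hfr.exists_pow_mul_inertia d.a.hℓ w.isPrime hℓw hsQ
  have hk1 := inertia_eq_one_of_ne d.a.hℓ d.a.hℓp (ell_ne_q d) hℓw hk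
  rw [mul_inv_eq_one, ← _root_.map_pow] at hk1
  obtain ⟨-, h3, h4⟩ := (res_eq_res_iff d b.σ (φ ^ k)).mp hk1
  rw [psi_mul, psi_inv, psi_pow, b.hψσ, psi_conj, psi_phi0, zero_add, neg_eq_zero] at h4
  rw [d.f.map_mul _ _ b.hσ (by rw [_root_.map_inv, _root_.map_pow, hφχ, one_pow, inv_one]),
    d.f.map_inv (by rw [_root_.map_pow, hφχ, one_pow]), d.f.map_pow hφχ, b.hfσ] at h3
  -- but the coordinates of `s` forbid this
  rcases mul_eq_zero.mp h4 with h5 | h5
  · rw [h5, zero_mul, neg_zero, add_zero] at h3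
    exact one_ne_zero h3
  · exact logEll_ne_zero d h5

/-- **`J` is a norm**, and the norm one element `t y / y` is a coboundary. -/
theorem exists_cochain (h2 : 2 < p) {J : field d} (hJ0 : J ≠ 0)
    (hJfix : ∀ γ, cycChar p γ = 1 → res d γ J = J)
    (hJsupp : ∀ w : Pl (field d), ord w (d.a.ℓ : field d) = 0 → ord w J = 0) :
    ∃ y u : field d, y ≠ 0 ∧ u ≠ 0 ∧ b.t y * u = y * b.s u ∧ orbitProd b.s y p = J := by
  classical
  set M : IntermediateField ℚ (field d) := IntermediateField.fixedField (Subgroup.zpowers b.s)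
  set sM : field d ≃ₐ[M] field d := sAut b
  have hrank : Module.finrank M (field d) = p := by
    rw [IntermediateField.finrank_fixedField_eq_card, Nat.card_zpowers, b.orderOf_s]
  have hsM : sM ≠ 1 := fun h => by
    have h1 : b.s = 1 := AlgEquiv.ext fun x => DFunLike.congr_fun h x
    have := b.orderOf_s
    rw [h1, orderOf_one] at this
    exact hp.out.one_lt.ne this
  have hpow : ∀ (i : ℕ) (x : field d), (sM ^ i) x = (b.s ^ i) x := fun i x => by
    induction i with
    | zero => rfl
    | succ i ih => rw [pow_succ', pow_succ', AlgEquiv.mul_apply, AlgEquiv.mul_apply, ih]; rfl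
  obtain ⟨ζ, hζ⟩ := exists_zeta_sField b
  have hJM : J ∈ M := by
    rw [IntermediateField.mem_fixedField_iff]
    exact fun g hg => (Subgroup.zpowers_le.mpr
      (show b.s ∈ MulAction.stabilizer _ J from hJfix _ b.hσ) hg :)
  -- Hasse norm theorem for the cyclic unramified extension
  obtain ⟨y, hy⟩ := exists_norm_eq hrank hsM hζ h2 (plRamIdx_sField b)
    (fun h => hJ0 (congrArg Subtype.val h)) fun v hv => dvd_ord_of_isNonsplit b hJM hJsupp hv
  have hyJ : orbitProd b.s y p = J := by
    have h := congrArg (algebraMap M (field d)) hy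
    rw [algebraMap_norm_eq_prod_pow hrank hsM] at h
    rw [orbitProd, Finset.prod_congr rfl fun i _ => (hpow i y).symm]
    exact h
  have hy0 : y ≠ 0 := fun h => by
    refine hJ0 ?_
    rw [← hyJ, orbitProd]
    exact Finset.prod_eq_zero (Finset.mem_range.mpr hp.out.pos) (by rw [h]; exact _root_.map_zero _)
  -- Hilbert 90
  have hnorm : Algebra.norm M (b.t y / y) = 1 := by
    apply (algebraMap M (field d)).injective
    rw [algebraMap_norm_eq_prod_pow hrank hsM, _root_.map_one,
      Finset.prod_congr rfl fun i _ => hpow i _]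
    have h1 : ∀ i ∈ Finset.range p, (b.s ^ i) (b.t y / y) = b.t ((b.s ^ i) y) / (b.s ^ i) y := by
      intro i _
      rw [map_div₀, ← AlgEquiv.mul_apply, ← AlgEquiv.mul_apply, (b.commute.pow_left i).eq]
    rw [Finset.prod_congr rfl h1, Finset.prod_div_distrib, ← map_prod,
      show ∏ i ∈ Finset.range p, (b.s ^ i) y = J from hyJ, show b.t J = J from hJfix b.τ b.hτ,
      div_self hJ0]
  have hg := mem_zpowers_generator hrank hsM
  have : IsCyclic (field d ≃ₐ[M] field d) := ⟨sM, hg⟩
  obtain ⟨c, hc⟩ := groupCohomology.exists_div_of_norm_eq_one hg hnorm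
  have hc' : b.t y / y = (c : field d) / b.s (c : field d) := hc.symm
  have hsc : b.s (c : field d) ≠ 0 := (_root_.map_ne_zero _).mpr c.ne_zero
  refine ⟨y, (c : field d)⁻¹, hy0, inv_ne_zero c.ne_zero, ?_, hyJ⟩
  rw [map_inv₀]
  rw [div_eq_div_iff hy0 hsc] at hc'
  field_simp
  linear_combination hc'

end HKummer

end Fermat.CFT
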